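import Mathlib

/-!
# Holomorphic branches of the roots of a monic polynomial family

For a monic `P : ℂ[z][X]` whose specialisations have only simple roots on the
half-plane `R < Re z`, the roots are given there by `d = deg P` holomorphic
functions of polynomial growth.  The branches are obtained by lifting through
the covering map `(z, x) ↦ z` on the zero set of `P`.
-/

namespace Fermat.Agent.Hilbertian

open Polynomial Topology Filter
open scoped Polynomial

/-- The specialisation `f(t, X)` of a bivariate polynomial `f(T, X)`. -/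
noncomputable def specialise {R : Type*} [CommRing R] (f : R[X][X]) (t : R) : R[X] :=
  f.map (evalRingHom t)

lemma coeff_specialise {R : Type*} [CommRing R] (f : R[X][X]) (t : R) (j : ℕ) :
    (specialise f t).coeff j = (f.coeff j).eval t := by
  simp [specialise, coeff_map]

lemma natDegree_specialise_le {R : Type*} [CommRing R] (f : R[X][X]) (t : R) :
    (specialise f t).natDegree ≤ f.natDegree := natDegree_map_le

lemma monic_specialise {R : Type*} [CommRing R] {f : R[X][X]} (hf : f.Monic) (t : R) :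
    (specialise f t).Monic := hf.map _

lemma natDegree_specialise {R : Type*} [CommRing R] [Nontrivial R] {f : R[X][X]} (hf : f.Monic)
    (t : R) : (specialise f t).natDegree = f.natDegree := hf.natDegree_map _

lemma eval_specialise {R : Type*} [CommRing R] (f : R[X][X]) (t x : R) :
    (specialise f t).eval x
      = ∑ j ∈ Finset.range (f.natDegree + 1), (f.coeff j).eval t * x ^ j := by
  rw [eval_eq_sum_range' (Nat.lt_succ_of_le (natDegree_specialise_le f t))]
  simp [coeff_specialise]

variable (P : ℂ[X][X])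

lemma continuous_eval_specialise :
    Continuous fun p : ℂ × ℂ => (specialise P p.1).eval p.2 := by
  simp only [eval_specialise]
  fun_prop

/-- An upper bound for the roots of `P(z, X)`. -/
noncomputable def rootBound (z : ℂ) : ℝ :=
  1 + ∑ j ∈ Finset.range P.natDegree, ‖(P.coeff j).eval z‖

lemma continuous_rootBound : Continuous (rootBound P) := by
  unfold rootBound
  fun_prop

lemma one_le_rootBound (z : ℂ) : 1 ≤ rootBound P z :=
  le_add_of_nonneg_right (Finset.sum_nonneg fun _ _ => norm_nonneg _)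

variable {P}

lemma norm_root_le (hP : P.Monic) {z x : ℂ} (hx : (specialise P z).eval x = 0) :
    ‖x‖ ≤ rootBound P z := by
  rcases le_or_gt ‖x‖ 1 with h | h
  · exact h.trans (one_le_rootBound P z)
  rw [eval_specialise, Finset.sum_range_succ, hP.coeff_natDegree, eval_one, one_mul] at hx
  have hx' : x ^ P.natDegree = -∑ j ∈ Finset.range P.natDegree, (P.coeff j).eval z * x ^ j :=
    eq_neg_of_add_eq_zero_right hx
  have h1 : ‖x‖ ^ P.natDegree * ‖x‖
      ≤ (∑ j ∈ Finset.range P.natDegree, ‖(P.coeff j).eval z‖) * ‖x‖ ^ P.natDegree := by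
    have h2 : ‖x‖ ^ P.natDegree
        ≤ ∑ j ∈ Finset.range P.natDegree, ‖(P.coeff j).eval z‖ * ‖x‖ ^ j := by
      rw [← norm_pow, hx', norm_neg]
      exact (norm_sum_le _ _).trans_eq (by simp)
    refine (mul_le_mul_of_nonneg_right h2 (norm_nonneg _)).trans ?_
    rw [Finset.sum_mul, Finset.sum_mul]
    refine Finset.sum_le_sum fun j hj => ?_
    rw [mul_assoc, ← pow_succ]
    exact mul_le_mul_of_nonneg_left
      (pow_le_pow_right₀ h.le (Finset.mem_range.1 hj)) (norm_nonneg _)
  rw [mul_comm] at h1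
  have := le_of_mul_le_mul_right h1 (pow_pos (one_pos.trans h) _)
  unfold rootBound
  linarith

/-- A monic polynomial over `ℂ` which is small at `x₀` has a root near `x₀`. -/
lemma exists_root_near {p : ℂ[X]} (hp : p.Monic) {x₀ : ℂ} {δ : ℝ} (hδ : 0 ≤ δ)
    (h : ‖p.eval x₀‖ < δ ^ p.natDegree) : ∃ x, p.eval x = 0 ∧ ‖x - x₀‖ < δ := by
  by_contra hne
  push Not at hne
  have hs : p.Splits := IsAlgClosed.splits p
  apply h.not_ge
  rw [hs.eval_eq_prod_roots_of_monic hp, hs.natDegree_eq_card_roots]
  have key : ∀ m : Multiset ℂ, (∀ r ∈ m, δ ≤ ‖x₀ - r‖) →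
      δ ^ m.card ≤ ‖(m.map (x₀ - ·)).prod‖ := by
    intro m
    induction m using Multiset.induction with
    | empty => simp
    | cons r m ih =>
      intro hm
      rw [Multiset.card_cons, Multiset.map_cons, Multiset.prod_cons, norm_mul, pow_succ']
      exact mul_le_mul (hm r (Multiset.mem_cons_self r m))
        (ih fun s hs => hm s (Multiset.mem_cons_of_mem hs)) (pow_nonneg hδ _) (norm_nonneg _)
  refine key _ fun r hr => ?_
  rw [← norm_neg, neg_sub]
  exact hne r (isRoot_of_mem_roots hr)

variable (P)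

/-- The difference quotient `(P(z, x) - P(z, y)) / (x - y)`. -/
noncomputable def diffQuot (z x y : ℂ) : ℂ :=
  ∑ j ∈ Finset.range (P.natDegree + 1),
    (P.coeff j).eval z * ∑ i ∈ Finset.range j, x ^ i * y ^ (j - 1 - i)

lemma diffQuot_mul (z x y : ℂ) :
    diffQuot P z x y * (x - y) = (specialise P z).eval x - (specialise P z).eval y := by
  rw [diffQuot, eval_specialise, eval_specialise, Finset.sum_mul, ← Finset.sum_sub_distrib]
  refine Finset.sum_congr rfl fun j _ => ?_
  rw [mul_assoc, geom_sum₂_mul, mul_sub]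

lemma continuous_diffQuot :
    Continuous fun p : ℂ × ℂ × ℂ => diffQuot P p.1 p.2.1 p.2.2 := by
  unfold diffQuot
  fun_prop

lemma diffQuot_self (z x : ℂ) :
    diffQuot P z x x = (derivative (specialise P z)).eval x := by
  rw [derivative_eval, sum_over_range' _ (fun n => by simp) _
    (Nat.lt_succ_of_le (natDegree_specialise_le P z)), diffQuot]
  refine Finset.sum_congr rfl fun j _ => ?_
  rw [geom_sum₂_self, coeff_specialise, mul_assoc]

/-- The zero set `{(z, x) | P(z, x) = 0}`. -/
abbrev RootSet : Set (ℂ × ℂ) := {p | (specialise P p.1).eval p.2 = 0}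

/-- The projection of the zero set to the parameter line. -/
def rootProj : RootSet P → ℂ := fun p => p.1.1

lemma continuous_rootProj : Continuous (rootProj P) :=
  continuous_fst.comp continuous_subtype_val

variable {P}

lemma isClosedMap_rootProj (hP : P.Monic) : IsClosedMap (rootProj P) := by
  refine IsProperMap.isClosedMap (isProperMap_iff_isCompact_preimage.2
    ⟨continuous_rootProj P, fun K hK => ?_⟩)
  obtain ⟨B, hB⟩ := (hK.image (continuous_rootBound P)).bddAbove
  have hbox : IsCompact (K ×ˢ Metric.closedBall (0 : ℂ) B) :=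
    hK.prod (isCompact_closedBall _ _)
  rw [Subtype.isCompact_iff]
  have heq : Subtype.val '' (rootProj P ⁻¹' K)
      = (K ×ˢ Metric.closedBall (0 : ℂ) B) ∩ RootSet P := by
    ext p
    constructor
    · rintro ⟨⟨q, hq⟩, hqK, rfl⟩
      refine ⟨⟨hqK, ?_⟩, hq⟩
      rw [mem_closedBall_zero_iff]
      exact (norm_root_le hP hq).trans (hB (Set.mem_image_of_mem _ hqK))
    · exact fun hp => ⟨⟨p, hp.2⟩, hp.1.1, rfl⟩
  rw [heq]
  exact hbox.inter_right (isClosed_eq (continuous_eval_specialise P) continuous_const)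

lemma isOpenMap_rootProj (hP : P.Monic) : IsOpenMap (rootProj P) := by
  refine isOpenMap_iff_nhds_le.2 fun e => ?_
  obtain ⟨⟨z₀, x₀⟩, he⟩ := e
  intro s hs
  rw [Filter.mem_map, nhds_subtype_eq_comap, Filter.mem_comap] at hs
  obtain ⟨t, ht, hts⟩ := hs
  obtain ⟨ε, hε, hεt⟩ := Metric.mem_nhds_iff.1 ht
  have hcont : Continuous fun z => ‖(specialise P z).eval x₀‖ :=
    ((continuous_eval_specialise P).comp (continuous_id.prodMk continuous_const)).norm
  have h0 : ‖(specialise P z₀).eval x₀‖ < ε ^ P.natDegree := by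
    rw [show (specialise P z₀).eval x₀ = 0 from he, norm_zero]
    positivity
  show s ∈ 𝓝 z₀
  filter_upwards [Metric.ball_mem_nhds z₀ hε,
    hcont.continuousAt.eventually (eventually_lt_nhds h0)] with z hz hz'
  rw [← natDegree_specialise hP z] at hz'
  obtain ⟨x, hx, hxε⟩ := exists_root_near (monic_specialise hP z) hε.le hz'
  have hmem : (⟨(z, x), hx⟩ : RootSet P) ∈ Subtype.val ⁻¹' t := by
    refine hεt ?_
    rw [Metric.mem_ball, Prod.dist_eq, max_lt_iff]
    exact ⟨Metric.mem_ball.1 hz, by rwa [dist_eq_norm]⟩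
  exact hts hmem

lemma isLocalHomeomorphOn_rootProj (hP : P.Monic) {U : Set ℂ}
    (hsimple : ∀ z ∈ U, ∀ x, (specialise P z).eval x = 0 →
      (derivative (specialise P z)).eval x ≠ 0) :
    IsLocalHomeomorphOn (rootProj P) (rootProj P ⁻¹' U) := by
  rw [isLocalHomeomorphOn_iff_isOpenEmbedding_restrict]
  rintro ⟨⟨z₀, x₀⟩, he⟩ hz₀
  have hne : diffQuot P z₀ x₀ x₀ ≠ 0 := by
    rw [diffQuot_self]
    exact hsimple z₀ hz₀ x₀ he
  have hopen := ((continuous_diffQuot P).continuousAt (x := (z₀, x₀, x₀))).eventually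
    (isOpen_ne.mem_nhds hne)
  obtain ⟨δ, hδ, hball⟩ := Metric.mem_nhds_iff.1 hopen
  refine ⟨Metric.ball ⟨(z₀, x₀), he⟩ δ, Metric.ball_mem_nhds _ hδ, ?_⟩
  refine IsOpenEmbedding.of_continuous_injective_isOpenMap
    ((continuous_rootProj P).comp continuous_subtype_val) ?_
    ((isOpenMap_rootProj hP).domRestrict Metric.isOpen_ball)
  rintro ⟨⟨⟨z, x⟩, hx⟩, hxb⟩ ⟨⟨⟨z', y⟩, hy⟩, hyb⟩ hzz'
  change z = z' at hzz'
  subst hzz'
  simp only [Metric.mem_ball, Subtype.dist_eq, Prod.dist_eq, max_lt_iff] at hxb hyb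
  have hQ : diffQuot P z x y ≠ 0 := by
    refine hball (a := (z, x, y)) ?_
    simp only [Metric.mem_ball, Prod.dist_eq, max_lt_iff]
    exact ⟨hxb.1, hxb.2, hyb.2⟩
  have h := diffQuot_mul P z x y
  rw [show (specialise P z).eval x = 0 from hx, show (specialise P z).eval y = 0 from hy,
    sub_zero] at h
  simp [sub_eq_zero.1 ((mul_eq_zero.1 h).resolve_left hQ)]

lemma finite_fibre_rootProj (hP : P.Monic) (z : ℂ) : (rootProj P ⁻¹' {z}).Finite := by
  have hfin : ({z} ×ˢ {x | (specialise P z).IsRoot x} : Set (ℂ × ℂ)).Finite :=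
    (Set.finite_singleton z).prod (finite_setOfPred_isRoot (monic_specialise hP z).ne_zero)
  refine (hfin.preimage Subtype.val_injective.injOn).subset ?_
  rintro ⟨⟨z', x⟩, hx⟩ hz
  change z' = z at hz
  subst hz
  exact ⟨rfl, hx⟩

lemma isCoveringMapOn_rootProj (hP : P.Monic) {U : Set ℂ}
    (hsimple : ∀ z ∈ U, ∀ x, (specialise P z).eval x = 0 →
      (derivative (specialise P z)).eval x ≠ 0) :
    IsCoveringMapOn (rootProj P) U :=
  (isClosedMap_rootProj hP).isCoveringMapOn_of_isLocalHomeomorphOn
    (fun z _ => finite_fibre_rootProj hP z) (isLocalHomeomorphOn_rootProj hP hsimple)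

/-- A continuous branch of simple roots is holomorphic. -/
lemma differentiableAt_rootBranch {x : ℂ → ℂ} {z₀ : ℂ} (hcont : ContinuousAt x z₀)
    (hroot : ∀ᶠ z in 𝓝 z₀, (specialise P z).eval (x z) = 0)
    (hne : (derivative (specialise P z₀)).eval (x z₀) ≠ 0) : DifferentiableAt ℂ x z₀ := by
  set h : ℂ → ℂ := fun z => (specialise P z).eval (x z₀)
  have hh : DifferentiableAt ℂ h z₀ := by
    simp only [h, eval_specialise]
    fun_prop
  have h0 : h z₀ = 0 := hroot.self_of_nhds
  set B : ℂ → ℂ := fun z => diffQuot P z (x z) (x z₀)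
  have hB : ContinuousAt B z₀ :=
    ((continuous_diffQuot P).continuousAt).comp
      (continuousAt_id.prodMk (hcont.prodMk continuousAt_const))
  have hB0 : B z₀ ≠ 0 := by
    simp only [B, diffQuot_self]
    exact hne
  have hslope : Tendsto (fun z => -slope h z₀ z / B z) (𝓝[≠] z₀)
      (𝓝 (-deriv h z₀ / B z₀)) :=
    (hasDerivAt_iff_tendsto_slope.1 hh.hasDerivAt).neg.div
      (hB.tendsto.mono_left nhdsWithin_le_nhds) hB0
  refine (hasDerivAt_iff_tendsto_slope.2 (hslope.congr' ?_)).differentiableAt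
  filter_upwards [nhdsWithin_le_nhds hroot,
    nhdsWithin_le_nhds (hB.eventually_ne hB0)] with z hz hBz
  have := diffQuot_mul P z (x z) (x z₀)
  rw [hz] at this
  simp only [slope_def_field, h0, sub_zero]
  have e1 : x z - x z₀ = -h z / B z := by
    rw [eq_div_iff hBz, mul_comm]
    simpa [h, B] using this
  rw [e1]
  ring

/-- The half-plane `R < Re z`. -/
def halfPlane (R : ℝ) : Set ℂ := {z | R < z.re}

lemma isOpen_halfPlane (R : ℝ) : IsOpen (halfPlane R) :=
  isOpen_lt continuous_const Complex.continuous_re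

lemma convex_halfPlane (R : ℝ) : Convex ℝ (halfPlane R) :=
  convex_halfSpace_re_gt R

/-- **Root branches**: on a half-plane without multiple roots the roots of a monic family
are given by holomorphic functions with pairwise distinct values. -/
theorem exists_rootBranches (hP : P.Monic) (R : ℝ)
    (hsimple : ∀ z ∈ halfPlane R, ∀ x, (specialise P z).eval x = 0 →
      (derivative (specialise P z)).eval x ≠ 0) :
    ∃ x : Fin P.natDegree → ℂ → ℂ, (∀ i, DifferentiableOn ℂ (x i) (halfPlane R)) ∧
      (∀ z ∈ halfPlane R, specialise P z = ∏ i, (X - C (x i z))) ∧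
      (∀ z ∈ halfPlane R, Function.Injective fun i => x i z) ∧
      ∀ i, ∀ z ∈ halfPlane R, ‖x i z‖ ≤ rootBound P z := by
  classical
  have hcov := isCoveringMapOn_rootProj hP hsimple
  let a₀ : halfPlane R := ⟨((R + 1 : ℝ) : ℂ), show R < ((R + 1 : ℝ) : ℂ).re by
    rw [Complex.ofReal_re]; exact lt_add_one R⟩
  have : ContractibleSpace (halfPlane R) :=
    (convex_halfPlane R).contractibleSpace ⟨_, a₀.2⟩
  have := (isOpen_halfPlane R).locallyPathConnectedSpace
  let p₀ := specialise P a₀
  have hp₀ : p₀.Monic := monic_specialise hP _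
  have hnodup : p₀.roots.Nodup := by
    refine Multiset.nodup_iff_count_le_one.2 fun r => ?_
    rw [count_roots]
    by_contra hlt
    obtain ⟨h1, h2⟩ := (one_lt_rootMultiplicity_iff_isRoot hp₀.ne_zero).1 (not_le.1 hlt)
    exact hsimple a₀ a₀.2 r h1 h2
  have hcard : p₀.roots.toFinset.card = P.natDegree := by
    rw [Multiset.toFinset_card_of_nodup hnodup, ← (IsAlgClosed.splits p₀).natDegree_eq_card_roots]
    exact natDegree_specialise hP _
  let idx : Fin P.natDegree ≃ p₀.roots.toFinset :=
    (Finset.equivFinOfCardEq hcard).symm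
  have hidx (i : Fin P.natDegree) : ((a₀ : ℂ), (idx i : ℂ)) ∈ RootSet P :=
    isRoot_of_mem_roots (Multiset.mem_toFinset.1 (idx i).2)
  have hlift : ∀ i : Fin P.natDegree, ∃ F : C(halfPlane R, RootSet P),
      F a₀ = ⟨((a₀ : ℂ), (idx i : ℂ)), hidx i⟩ ∧ rootProj P ∘ F = Subtype.val := fun i =>
    (hcov.existsUnique_continuousMap_lifts ⟨Subtype.val, continuous_subtype_val⟩
      (e₀ := ⟨((a₀ : ℂ), (idx i : ℂ)), hidx i⟩) rfl fun a => a.2).exists
  choose L hL0 hLp using hlift
  let x : Fin P.natDegree → ℂ → ℂ := fun i z =>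
    if hz : z ∈ halfPlane R then ((L i ⟨z, hz⟩ : RootSet P) : ℂ × ℂ).2 else 0
  have hx (i) (z : halfPlane R) : x i z = ((L i z : RootSet P) : ℂ × ℂ).2 := dif_pos z.2
  have hfst (i) (z : halfPlane R) : ((L i z : RootSet P) : ℂ × ℂ).1 = z := congrFun (hLp i) z
  have hroot (i) (z : ℂ) (hz : z ∈ halfPlane R) : (specialise P z).eval (x i z) = 0 := by
    have h2 : (specialise P ((L i ⟨z, hz⟩ : RootSet P) : ℂ × ℂ).1).eval
        ((L i ⟨z, hz⟩ : RootSet P) : ℂ × ℂ).2 = 0 := (L i ⟨z, hz⟩).2
    rw [hfst i ⟨z, hz⟩] at h2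
    rw [hx i ⟨z, hz⟩]
    exact h2
  have hinj : ∀ z ∈ halfPlane R, Function.Injective fun i => x i z := by
    intro z hz i j hij
    have hLij : L i ⟨z, hz⟩ = L j ⟨z, hz⟩ := by
      refine Subtype.ext (Prod.ext ?_ ?_)
      · rw [hfst, hfst]
      · rw [← hx, ← hx]
        exact hij
    have heq : L i = L j :=
      (hcov.existsUnique_continuousMap_lifts ⟨Subtype.val, continuous_subtype_val⟩
        (a₀ := ⟨z, hz⟩) (e₀ := L j ⟨z, hz⟩) (congrFun (hLp j) ⟨z, hz⟩) fun a => a.2).unique
        ⟨hLij, hLp i⟩ ⟨rfl, hLp j⟩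
    have h := congrArg (fun F : C(halfPlane R, RootSet P) => ((F a₀ : RootSet P) : ℂ × ℂ).2) heq
    simp only [hL0] at h
    exact idx.injective (Subtype.ext h)
  have hcontOn (i) : ContinuousOn (x i) (halfPlane R) := by
    rw [continuousOn_iff_continuous_domRestrict]
    refine Continuous.congr (f := fun z => ((L i z : RootSet P) : ℂ × ℂ).2) ?_
      fun z => (hx i z).symm
    exact continuous_snd.comp (continuous_subtype_val.comp (map_continuous _))
  refine ⟨x, fun i z hz => ?_, fun z hz => ?_, hinj, fun i z hz => ?_⟩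
  · have hn : halfPlane R ∈ 𝓝 z := (isOpen_halfPlane R).mem_nhds hz
    refine (differentiableAt_rootBranch ((hcontOn i).continuousAt hn) ?_
      (hsimple z hz _ (hroot i z hz))).differentiableWithinAt
    filter_upwards [hn] with w hw using hroot i w hw
  · have hm := monic_specialise hP z
    have hroots : (specialise P z).roots = Finset.univ.val.map fun i => x i z := by
      refine (Multiset.eq_of_le_of_card_le ?_ ?_).symm
      · refine (Multiset.le_iff_subset ((Finset.univ.nodup).map (hinj z hz))).2 ?_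
        intro r hr
        obtain ⟨i, -, rfl⟩ := Multiset.mem_map.1 hr
        exact (mem_roots hm.ne_zero).2 (hroot i z hz)
      · rw [Multiset.card_map, ← (IsAlgClosed.splits (specialise P z)).natDegree_eq_card_roots,
          natDegree_specialise hP z]
        simp
    conv_lhs => rw [(IsAlgClosed.splits (specialise P z)).eq_prod_roots_of_monic hm, hroots]
    rw [Multiset.map_map]
    rfl
  · exact norm_root_le hP (hroot i z hz)

end Fermat.Agent.Hilbertian
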