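import Mathlib

/-!
# Integral points on graphs of functions with small derivatives

If finitely many real functions have `k`-th derivative `O(1/t²)`, then `K + 1 > k` natural
numbers at which all of them take integer values either lie on polynomial graphs of degree
`< k` or spread over an interval growing with a power of the first one.  Sets with the second
property have density zero.
-/

namespace Fermat.Agent.Hilbertian

open Polynomial Filter Topology
open scoped Nat

/-- A set of natural numbers of density zero. -/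
def NatSparse (Z : Set ℕ) : Prop :=
  ∀ ε : ℝ, 0 < ε → ∃ N₀ : ℕ, ∀ N ≥ N₀, ((Z ∩ Set.Iio N).ncard : ℝ) ≤ ε * N

/-- A set of integers of density zero. -/
def DensityZero (A : Set ℤ) : Prop :=
  Tendsto (fun N : ℕ => ((A ∩ Set.Icc (-(N : ℤ)) N).ncard : ℝ) / (2 * N + 1)) atTop (𝓝 0)

lemma NatSparse.mono {Z Z' : Set ℕ} (h : NatSparse Z) (hss : Z' ⊆ Z) : NatSparse Z' :=
  fun ε hε => (h ε hε).imp fun _ hN N hNN => le_trans
    (Nat.cast_le.2 (Set.ncard_le_ncard (Set.inter_subset_inter_left _ hss)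
      ((Set.finite_Iio N).inter_of_right _))) (hN N hNN)

lemma natSparse_of_finite {Z : Set ℕ} (h : Z.Finite) : NatSparse Z := by
  intro ε hε
  obtain ⟨N₀, hN₀⟩ := exists_nat_ge ((Z.ncard : ℝ) / ε)
  refine ⟨N₀, fun N hN => ?_⟩
  have h1 : ((Z ∩ Set.Iio N).ncard : ℝ) ≤ Z.ncard :=
    Nat.cast_le.2 (Set.ncard_le_ncard Set.inter_subset_left h)
  rw [div_le_iff₀ hε] at hN₀
  have h2 : (N₀ : ℝ) * ε ≤ ε * N := by
    rw [mul_comm]
    exact mul_le_mul_of_nonneg_left (Nat.cast_le.2 hN) hε.le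
  linarith

lemma NatSparse.union {Z Z' : Set ℕ} (h : NatSparse Z) (h' : NatSparse Z') :
    NatSparse (Z ∪ Z') := by
  intro ε hε
  obtain ⟨N₁, h₁⟩ := h (ε / 2) (half_pos hε)
  obtain ⟨N₂, h₂⟩ := h' (ε / 2) (half_pos hε)
  refine ⟨max N₁ N₂, fun N hN => ?_⟩
  rw [Set.union_inter_distrib_right]
  have := Set.ncard_union_le (Z ∩ Set.Iio N) (Z' ∩ Set.Iio N)
  have h3 : (((Z ∩ Set.Iio N) ∪ (Z' ∩ Set.Iio N)).ncard : ℝ)
      ≤ (Z ∩ Set.Iio N).ncard + (Z' ∩ Set.Iio N).ncard := mod_cast this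
  linarith [h₁ N (le_of_max_le_left hN), h₂ N (le_of_max_le_right hN)]

lemma natSparse_biUnion {α : Type*} (s : Finset α) {Z : α → Set ℕ}
    (h : ∀ a ∈ s, NatSparse (Z a)) : NatSparse (⋃ a ∈ s, Z a) := by
  classical
  induction s using Finset.induction_on with
  | empty => simpa using natSparse_of_finite Set.finite_empty
  | insert a s ha ih =>
    rw [Finset.set_biUnion_insert]
    exact (h a (Finset.mem_insert_self a s)).union
      (ih fun b hb => h b (Finset.mem_insert_of_mem hb))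

/-- Repeated Rolle theorem. -/
lemma exists_zero_iterate : ∀ (k : ℕ) (G : ℕ → ℝ → ℝ) (A : ℝ),
    (∀ j, ∀ t > A, HasDerivAt (G j) (G (j + 1) t) t) → ∀ t : Fin (k + 1) → ℝ, StrictMono t →
      A < t 0 → (∀ i, G 0 (t i) = 0) → ∃ ξ, t 0 ≤ ξ ∧ G k ξ = 0 := by
  intro k
  induction k with
  | zero => exact fun G A _ t _ _ h0 => ⟨t 0, le_rfl, h0 0⟩
  | succ k ih =>
    intro G A hG t ht hA h0
    have hgt (x : ℝ) (hx : t 0 ≤ x) : A < x := hA.trans_le hx
    have hξ : ∀ i : Fin (k + 1), ∃ ξ ∈ Set.Ioo (t i.castSucc) (t i.succ), G 1 ξ = 0 := fun i =>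
      exists_hasDerivAt_eq_zero (ht Fin.castSucc_lt_succ)
        (fun x hx => (hG 0 x (hgt x ((ht.monotone (Fin.zero_le _)).trans hx.1))).continuousAt
          |>.continuousWithinAt)
        (by rw [h0, h0])
        fun x hx => hG 0 x (hgt x ((ht.monotone (Fin.zero_le _)).trans hx.1.le))
    choose ξ hξ h1 using hξ
    have hmono : StrictMono ξ := fun i j hij =>
      (hξ i).2.trans_le ((ht.monotone (Fin.succ_le_castSucc_iff.2 hij)).trans (hξ j).1.le)
    obtain ⟨η, hη, hz⟩ := ih (fun j => G (j + 1)) A (fun j => hG (j + 1)) ξ hmono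
      (hA.trans (by simpa using (hξ 0).1)) h1
    exact ⟨η, le_trans (by simpa using (hξ 0).1.le) hη, hz⟩

/-- The interpolation polynomial at `k + 1` natural nodes with integer values, and the
denominator of its top coefficient. -/
lemma exists_interpolation (k : ℕ) (m : Fin (k + 1) → ℕ) (hm : StrictMono m)
    (a : Fin (k + 1) → ℤ) :
    ∃ p : ℚ[X], p.natDegree ≤ k ∧ (∀ i, p.eval (m i : ℚ) = a i) ∧
      ∃ V c : ℤ, (|V| : ℤ) ≤ ((m (Fin.last k) : ℤ) - m 0) ^ (k * (k + 1)) ∧ V ≠ 0 ∧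
        p.coeff k * V = c := by
  classical
  have hinj : Set.InjOn (fun i => (m i : ℚ)) (Finset.univ : Finset (Fin (k + 1))) :=
    (Nat.cast_injective.comp hm.injective).injOn
  set p := Lagrange.interpolate Finset.univ (fun i => (m i : ℚ)) fun i => (a i : ℚ) with hp
  let W : Fin (k + 1) → ℤ := fun i =>
    ∏ j ∈ Finset.univ.erase i, ((m i : ℤ) - m j)
  have hdeg : p.degree < (Finset.univ : Finset (Fin (k + 1))).card :=
    Lagrange.degree_interpolate_lt _ hinj
  have heval : ∀ i, p.eval (m i : ℚ) = a i := fun i =>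
    Lagrange.eval_interpolate_at_node _ hinj (Finset.mem_univ i)
  have hW (i) : W i ≠ 0 := Finset.prod_ne_zero_iff.2 fun j hj => sub_ne_zero.2
    (mod_cast fun h => (Finset.mem_erase.1 hj).1 (hm.injective h).symm)
  refine ⟨p, natDegree_le_iff_degree_le.2 ?_, heval, ∏ i, W i,
    ∑ i, a i * ∏ l ∈ Finset.univ.erase i, W l, ?_,
    Finset.prod_ne_zero_iff.2 fun i _ => hW i, ?_⟩
  · exact (Lagrange.degree_interpolate_le _ hinj).trans (by simp)
  · have hle (i j : Fin (k + 1)) : |(m i : ℤ) - m j| ≤ (m (Fin.last k) : ℤ) - m 0 := by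
      have h1 := hm.monotone (Fin.le_last i)
      have h2 := hm.monotone (Fin.le_last j)
      have h3 := hm.monotone (Fin.zero_le i)
      have h4 := hm.monotone (Fin.zero_le j)
      rw [abs_le]
      omega
    rw [Finset.abs_prod, pow_mul]
    calc ∏ i, |W i| ≤ ∏ _i : Fin (k + 1), ((m (Fin.last k) : ℤ) - m 0) ^ k := by
          refine Finset.prod_le_prod (fun i _ => abs_nonneg _) fun i _ => ?_
          simp only [W, Finset.abs_prod]
          refine (Finset.prod_le_prod (fun j _ => abs_nonneg _) fun j _ => hle i j).trans ?_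
          simp
      _ = _ := by simp
  · have h := Lagrange.coeff_eq_sum hinj hdeg
    simp only [Finset.card_univ, Fintype.card_fin, Nat.add_sub_cancel] at h
    rw [h, Finset.sum_mul]
    push_cast
    refine Finset.sum_congr rfl fun i _ => ?_
    rw [heval, ← Finset.mul_prod_erase Finset.univ (fun l => (W l : ℚ)) (Finset.mem_univ i)]
    have hWi : (∏ j ∈ Finset.univ.erase i, ((m i : ℚ) - m j)) = (W i : ℚ) := by simp [W]
    have hWi0 : (W i : ℚ) ≠ 0 := mod_cast hW i
    rw [hWi]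
    field_simp

/-- `k + 1` integral points on the graph of a function with small `k`-th derivative. -/
lemma window_dichotomy {k : ℕ} {A C : ℝ} (hA : 0 ≤ A) {G : ℕ → ℝ → ℝ}
    (hG : ∀ j, ∀ t > A, HasDerivAt (G j) (G (j + 1) t) t)
    (hbd : ∀ t > A, |G k t| ≤ C / t ^ 2)
    (m : Fin (k + 1) → ℕ) (hm : StrictMono m) (hm0 : A < m 0)
    (a : Fin (k + 1) → ℤ) (ha : ∀ i, G 0 (m i) = a i) :
    (∃ p : ℚ[X], p.degree < k ∧ ∀ i, p.eval (m i : ℚ) = a i) ∨
      (m 0 : ℝ) ^ 2 ≤ C * ((m (Fin.last k) : ℝ) - m 0) ^ (k * (k + 1)) := by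
  obtain ⟨p, hpdeg, hpev, V, c, hV, hV0, hc⟩ := exists_interpolation k m hm a
  by_cases hck : p.coeff k = 0
  · refine Or.inl ⟨p, (degree_lt_iff_coeff_zero p k).2 fun j hj => ?_, hpev⟩
    rcases hj.eq_or_lt with h | h
    · rwa [← h]
    · exact coeff_eq_zero_of_natDegree_lt (hpdeg.trans_lt h)
  right
  set q := p.map (algebraMap ℚ ℝ)
  obtain ⟨ξ, hξ, hzero⟩ := exists_zero_iterate k
    (fun j t => G j t - (derivative^[j] q).eval t) A
    (fun j t ht => (hG j t ht).sub (by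
      rw [Function.iterate_succ_apply']
      exact (derivative^[j] q).hasDerivAt t))
    (fun i => (m i : ℝ)) (fun i j hij => Nat.cast_lt.2 (hm hij)) hm0 fun i => by
      have : q.eval (m i : ℝ) = a i := by
        rw [show (m i : ℝ) = algebraMap ℚ ℝ (m i : ℚ) by simp, eval_map_algebraMap,
          aeval_algebraMap_apply_eq_algebraMap_eval, hpev]
        simp
      simp [ha, this]
  have hq : (derivative^[k] q).eval ξ = (k ! : ℝ) * (p.coeff k : ℝ) := by
    have h0 : (derivative^[k] q).natDegree = 0 := by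
      refine Nat.le_zero.1 ((natDegree_iterate_derivative _ k).trans ?_)
      rw [natDegree_map]
      omega
    rw [eq_C_of_natDegree_eq_zero h0, eval_C, coeff_iterate_derivative]
    simp [q, coeff_map, Nat.descFactorial_self]
  have hcoef : (k ! : ℝ) * |(p.coeff k : ℝ)| ≤ C / ξ ^ 2 := by
    have h := hbd ξ (hm0.trans_le hξ)
    rwa [sub_eq_zero.1 hzero, hq, abs_mul, Nat.abs_cast] at h
  have hm0pos : (0 : ℝ) < m 0 := hA.trans_lt hm0
  have h1 : |(p.coeff k : ℝ)| * ξ ^ 2 ≤ C := by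
    rw [le_div_iff₀ (pow_pos (hm0pos.trans_le hξ) 2)] at hcoef
    have hk1 : (1 : ℝ) ≤ k ! := mod_cast k.factorial_pos
    calc |(p.coeff k : ℝ)| * ξ ^ 2 ≤ (k ! : ℝ) * |(p.coeff k : ℝ)| * ξ ^ 2 :=
          mul_le_mul_of_nonneg_right (le_mul_of_one_le_left (abs_nonneg _) hk1) (sq_nonneg _)
      _ ≤ C := hcoef
  have hc1 : (1 : ℝ) ≤ |(p.coeff k : ℝ)| * |(V : ℝ)| := by
    have hR : (p.coeff k : ℝ) * (V : ℝ) = (c : ℝ) := mod_cast hc
    have hc0 : c ≠ 0 := fun h => by
      rw [h, Int.cast_zero] at hc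
      exact (mul_ne_zero hck (Int.cast_ne_zero.2 hV0)) hc
    rw [← abs_mul, hR]
    exact mod_cast Int.one_le_abs hc0
  have hV' : |(V : ℝ)| ≤ ((m (Fin.last k) : ℝ) - m 0) ^ (k * (k + 1)) := mod_cast hV
  calc (m 0 : ℝ) ^ 2 ≤ ξ ^ 2 := pow_le_pow_left₀ hm0pos.le hξ 2
    _ ≤ ξ ^ 2 * (|(p.coeff k : ℝ)| * |(V : ℝ)|) :=
        le_mul_of_one_le_right (sq_nonneg _) hc1
    _ = |(p.coeff k : ℝ)| * ξ ^ 2 * |(V : ℝ)| := by ring
    _ ≤ C * |(V : ℝ)| := mul_le_mul_of_nonneg_right h1 (abs_nonneg _)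
    _ ≤ _ := mul_le_mul_of_nonneg_left hV' ((mul_nonneg (abs_nonneg _) (sq_nonneg _)).trans h1)

/-- Finitely many functions with small `k`-th derivative, integral at `K + 1` points: either
they all agree there with polynomials of degree `< k`, or the points are spread out. -/
theorem points_dichotomy {α : Type*} {k K : ℕ} (hk : 0 < k) (hkK : k ≤ K) {A C : ℝ} (hA : 0 ≤ A)
    (hC : 0 ≤ C) {G : α → ℕ → ℝ → ℝ}
    (hG : ∀ b j, ∀ t > A, HasDerivAt (G b j) (G b (j + 1) t) t)
    (hbd : ∀ b, ∀ t > A, |G b k t| ≤ C / t ^ 2)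
    (m : Fin (K + 1) → ℕ) (hm : StrictMono m) (hm0 : A < m 0)
    (hint : ∀ b i, ∃ a : ℤ, G b 0 (m i) = a) :
    (∀ b, ∃ p : ℚ[X], p.degree < k ∧ ∀ i, ((p.eval (m i : ℚ) : ℚ) : ℝ) = G b 0 (m i)) ∨
      (m 0 : ℝ) ^ 2 ≤ C * ((m (Fin.last K) : ℝ) - m 0) ^ (k * (k + 1)) := by
  rw [or_iff_not_imp_right]
  intro hspread b
  choose a ha using hint b
  let first : Fin k → Fin (K + 1) := fun i => ⟨i, by omega⟩
  have hinj : Set.InjOn (fun i => (m (first i) : ℚ)) (Finset.univ : Finset (Fin k)) := by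
    intro i _ j _ h
    have := hm.injective (Nat.cast_injective h)
    simpa [first, Fin.ext_iff] using this
  set p := Lagrange.interpolate Finset.univ (fun i => (m (first i) : ℚ))
    fun i => (a (first i) : ℚ)
  have hpdeg : p.degree < (Finset.univ : Finset (Fin k)).card :=
    Lagrange.degree_interpolate_lt _ hinj
  have hpev : ∀ i, p.eval (m (first i) : ℚ) = a (first i) := fun i =>
    Lagrange.eval_interpolate_at_node _ hinj (Finset.mem_univ i)
  refine ⟨p, by simpa using hpdeg, fun l => ?_⟩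
  suffices p.eval (m l : ℚ) = a l by rw [this, ha]; simp
  by_cases hl : (l : ℕ) < k
  · exact hpev ⟨l, hl⟩
  let w : Fin (k + 1) → Fin (K + 1) := fun i => if h : (i : ℕ) < k then ⟨i, by omega⟩ else l
  have hw : StrictMono w := by
    intro i j hij
    have hij' : (i : ℕ) < j := hij
    have hi : (i : ℕ) < k := by omega
    simp only [w, dif_pos hi]
    split <;> rw [Fin.lt_def] <;> dsimp only <;> omega
  have hw0 : w 0 = 0 := by simp [w, hk]
  rcases window_dichotomy hA (hG b) (hbd b) (m ∘ w) (hm.comp hw)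
    (by rw [Function.comp_apply, hw0]; exact hm0) (a ∘ w) (fun i => ha (w i)) with
    ⟨q, hqdeg, hqev⟩ | hle
  · have hqp : q = p := by
      refine eq_of_degrees_lt_of_eval_index_eq (Finset.univ : Finset (Fin k))
        (v := fun i => (m (first i) : ℚ)) hinj (by simpa using hqdeg) hpdeg fun i _ => ?_
      rw [hpev]
      have : w i.castSucc = first i := by simp [w, first]
      simpa [this] using hqev i.castSucc
    have : w (Fin.last k) = l := by simp [w]
    simpa [← hqp, this] using hqev (Fin.last k)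
  · refine absurd ?_ hspread
    have hwl : w (Fin.last k) = l := by simp [w]
    simp only [Function.comp_apply, hw0, hwl] at hle
    refine hle.trans (mul_le_mul_of_nonneg_left (pow_le_pow_left₀ ?_ ?_ _) hC)
    · exact sub_nonneg.2 (Nat.cast_le.2 (hm.monotone (Fin.zero_le l)))
    · exact sub_le_sub_right (Nat.cast_le.2 (hm.monotone (Fin.le_last l))) _

/-- A set in which `K + 1` elements always spread out has density zero. -/
theorem natSparse_of_spread {Z : Set ℕ} {A C : ℝ} {K e : ℕ}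
    (h : ∀ m : Fin (K + 1) → ℕ, StrictMono m → (∀ i, m i ∈ Z) → A < m 0 →
      (m 0 : ℝ) ^ 2 ≤ C * ((m (Fin.last K) : ℝ) - m 0) ^ e) : NatSparse Z := by
  classical
  intro ε hε
  obtain ⟨L, hL⟩ := exists_nat_gt (2 * (K : ℝ) / ε)
  have hLR : (0 : ℝ) < L := lt_of_le_of_lt (by positivity) hL
  have hL0 : 0 < L := mod_cast hLR
  obtain ⟨N₁, hN₁⟩ := exists_nat_gt (max A (max 1 (|C| * (L : ℝ) ^ e)))
  obtain ⟨hA, h1, hCL⟩ : A < N₁ ∧ (1 : ℝ) < N₁ ∧ |C| * (L : ℝ) ^ e < N₁ := by
    simpa [max_lt_iff] using hN₁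
  have hblock : ∀ a ≥ N₁, ((Finset.Ico a (a + L)).filter (· ∈ Z)).card ≤ K := by
    intro a ha
    by_contra hcard
    obtain ⟨T, hT, hTc⟩ := Finset.exists_subset_card_eq (show K + 1 ≤ _ from not_le.1 hcard)
    set m := T.orderEmbOfFin hTc with hm
    have hmem (i) : a ≤ m i ∧ m i < a + L ∧ m i ∈ Z := by
      simpa [and_assoc] using hT (T.orderEmbOfFin_mem hTc i)
    have haR : (N₁ : ℝ) ≤ m 0 := mod_cast ha.trans (hmem 0).1
    have hsp := h m m.strictMono (fun i => (hmem i).2.2) (hA.trans_le haR)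
    have hlen : (m (Fin.last K) : ℝ) - m 0 ≤ L := by
      have h' : m (Fin.last K) ≤ m 0 + L := by
        have := (hmem 0).1
        have := (hmem (Fin.last K)).2.1
        omega
      have h'' : (m (Fin.last K) : ℝ) ≤ m 0 + L := mod_cast h'
      linarith
    have hlen0 : (0 : ℝ) ≤ (m (Fin.last K) : ℝ) - m 0 :=
      sub_nonneg.2 (Nat.cast_le.2 (m.monotone (Fin.zero_le _)))
    have : (m 0 : ℝ) ^ 2 < N₁ := hsp.trans_lt <| lt_of_le_of_lt
      ((mul_le_mul_of_nonneg_right (le_abs_self C) (pow_nonneg hlen0 _)).trans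
        (mul_le_mul_of_nonneg_left (pow_le_pow_left₀ hlen0 hlen _) (abs_nonneg C))) hCL
    nlinarith
  obtain ⟨N₀, hN₀⟩ := exists_nat_ge (2 * ((N₁ : ℝ) + K) / ε)
  refine ⟨N₀, fun N hN => ?_⟩
  have hsub : Z ∩ Set.Iio N ⊆ ↑(Finset.range N₁ ∪ (Finset.range (N / L + 1)).biUnion
      fun q => (Finset.Ico (N₁ + q * L) (N₁ + q * L + L)).filter (· ∈ Z)) := by
    rintro x ⟨hxZ, hxN⟩
    simp only [Finset.coe_union, Finset.coe_range, Set.mem_union, Set.mem_Iio,
      Finset.coe_biUnion, Set.mem_iUnion, Finset.coe_filter, Set.mem_ofPred_eq, Finset.mem_Ico]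
    rcases lt_or_ge x N₁ with hx | hx
    · exact Or.inl hx
    have hdm := Nat.div_add_mod (x - N₁) L
    have hlt := Nat.mod_lt (x - N₁) hL0
    have hle : (x - N₁) / L ≤ N / L := Nat.div_le_div_right (by have : x < N := hxN; omega)
    rw [mul_comm] at hdm
    exact Or.inr ⟨(x - N₁) / L, Nat.lt_succ_of_le hle, ⟨by omega, by omega⟩, hxZ⟩
  have hcount : (Z ∩ Set.Iio N).ncard ≤ N₁ + (N / L + 1) * K := by
    refine (Set.ncard_le_ncard hsub (Finset.finite_toSet _)).trans ?_
    rw [Set.ncard_coe_finset]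
    refine (Finset.card_union_le _ _).trans (add_le_add (Finset.card_range _).le ?_)
    refine Finset.card_biUnion_le.trans ?_
    refine (Finset.sum_le_sum fun q _ => hblock (N₁ + q * L) (Nat.le_add_right _ _)).trans ?_
    simp
  have hcountR : ((Z ∩ Set.Iio N).ncard : ℝ) ≤ N₁ + ((N : ℝ) / L + 1) * K :=
    le_trans (b := ((N₁ + (N / L + 1) * K : ℕ) : ℝ)) (Nat.cast_le.2 hcount) (by
      push_cast
      gcongr
      exact Nat.cast_div_le)
  have hA' : 2 * ((N₁ : ℝ) + K) ≤ ε * N := by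
    have h2 : (N₀ : ℝ) ≤ N := mod_cast hN
    rw [div_le_iff₀ hε] at hN₀
    nlinarith
  have hB' : 2 * ((N : ℝ) / L * K) ≤ ε * N := by
    rw [div_lt_iff₀ hε] at hL
    rw [div_mul_eq_mul_div, ← mul_div_assoc, div_le_iff₀ hLR]
    have h0 : (0 : ℝ) ≤ N := Nat.cast_nonneg N
    nlinarith
  linarith

lemma DensityZero.mono {A B : Set ℤ} (h : DensityZero A) (hss : B ⊆ A) : DensityZero B := by
  refine squeeze_zero (fun N => by positivity) (fun N => ?_) h
  refine div_le_div_of_nonneg_right (Nat.cast_le.2 ?_) (by positivity)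
  exact Set.ncard_le_ncard (Set.inter_subset_inter_left _ hss)
    ((Set.finite_Icc _ _).inter_of_right _)

lemma DensityZero.union {A B : Set ℤ} (hA : DensityZero A) (hB : DensityZero B) :
    DensityZero (A ∪ B) := by
  refine squeeze_zero (fun N => by positivity) (fun N => ?_) (by simpa using hA.add hB)
  rw [← add_div]
  refine div_le_div_of_nonneg_right ?_ (by positivity)
  rw [Set.union_inter_distrib_right]
  exact mod_cast Set.ncard_union_le _ _

lemma densityZero_of_finite {A : Set ℤ} (hA : A.Finite) : DensityZero A := by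
  have h : Tendsto (fun N : ℕ => (A.ncard : ℝ) / (2 * N + 1)) atTop (𝓝 0) :=
    tendsto_const_nhds.div_atTop (tendsto_atTop_add_const_right atTop 1
      (tendsto_natCast_atTop_atTop.const_mul_atTop two_pos))
  refine squeeze_zero (fun N => by positivity) (fun N => ?_) h
  exact div_le_div_of_nonneg_right
    (Nat.cast_le.2 (Set.ncard_le_ncard Set.inter_subset_left hA)) (by positivity)

lemma densityZero_biUnion {α : Type*} (s : Finset α) {Z : α → Set ℤ}
    (h : ∀ a ∈ s, DensityZero (Z a)) : DensityZero (⋃ a ∈ s, Z a) := by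
  classical
  induction s using Finset.induction_on with
  | empty => simpa using densityZero_of_finite Set.finite_empty
  | insert a s ha ih =>
    rw [Finset.set_biUnion_insert]
    exact (h a (Finset.mem_insert_self a s)).union
      (ih fun b hb => h b (Finset.mem_insert_of_mem hb))

/-- Density zero on the positive and on the negative half-line gives density zero. -/
lemma densityZero_of_natSparse {A : Set ℤ} (hp : NatSparse {n : ℕ | (n : ℤ) ∈ A})
    (hm : NatSparse {n : ℕ | -(n : ℤ) ∈ A}) : DensityZero A := by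
  refine tendsto_order.2 ⟨fun a ha => Eventually.of_forall fun N => ha.trans_le (by positivity),
    fun a ha => ?_⟩
  obtain ⟨N₁, h₁⟩ := hp (a / 3) (by positivity)
  obtain ⟨N₂, h₂⟩ := hm (a / 3) (by positivity)
  filter_upwards [eventually_ge_atTop (max N₁ N₂)] with N hN
  have hsub : A ∩ Set.Icc (-(N : ℤ)) N ⊆
      (fun n : ℕ => (n : ℤ)) '' ({n : ℕ | (n : ℤ) ∈ A} ∩ Set.Iio (N + 1)) ∪
        (fun n : ℕ => -(n : ℤ)) '' ({n : ℕ | -(n : ℤ) ∈ A} ∩ Set.Iio (N + 1)) := by
    rintro x ⟨hx, hl, hu⟩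
    rcases Int.eq_nat_or_neg x with ⟨n, rfl | rfl⟩
    · exact Or.inl ⟨n, ⟨hx, Set.mem_Iio.2 (by omega)⟩, rfl⟩
    · exact Or.inr ⟨n, ⟨hx, Set.mem_Iio.2 (by omega)⟩, rfl⟩
  have hf1 := (Set.finite_Iio (N + 1)).inter_of_right {n : ℕ | (n : ℤ) ∈ A}
  have hf2 := (Set.finite_Iio (N + 1)).inter_of_right {n : ℕ | -(n : ℤ) ∈ A}
  have hcard := ((Set.ncard_le_ncard hsub ((hf1.image _).union (hf2.image _))).trans
    (Set.ncard_union_le _ _)).trans
      (add_le_add (Set.ncard_image_le hf1) (Set.ncard_image_le hf2))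
  have hR : ((A ∩ Set.Icc (-(N : ℤ)) N).ncard : ℝ) ≤
      (({n : ℕ | (n : ℤ) ∈ A} ∩ Set.Iio (N + 1)).ncard : ℝ) +
        ({n : ℕ | -(n : ℤ) ∈ A} ∩ Set.Iio (N + 1)).ncard := mod_cast hcard
  have := h₁ (N + 1) (by omega)
  have := h₂ (N + 1) (by omega)
  push_cast at *
  rw [div_lt_iff₀ (by positivity)]
  nlinarith

/-- Outside a set of density zero there are infinitely many natural numbers. -/
lemma DensityZero.infinite_nat {A : Set ℤ} (h : DensityZero A) :
    {n : ℕ | (n : ℤ) ∉ A}.Infinite := by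
  intro hfin
  set c := {n : ℕ | (n : ℤ) ∉ A}.ncard
  obtain ⟨N, hN, hN'⟩ := ((tendsto_order.1 h).2 (1 / 4) (by norm_num)).and
    (eventually_ge_atTop (4 * c)) |>.exists
  have hsub : Set.Iic N ⊆ {n : ℕ | (n : ℤ) ∉ A} ∪
      (Nat.cast ⁻¹' (A ∩ Set.Icc (-(N : ℤ)) N) : Set ℕ) := by
    intro n hn
    by_cases hA : (n : ℤ) ∈ A
    · refine Or.inr ⟨hA, ?_, ?_⟩ <;> simp only [Set.mem_Iic] at hn <;> omega
    · exact Or.inl hA
  have hfin' : (A ∩ Set.Icc (-(N : ℤ)) N).Finite := (Set.finite_Icc _ _).inter_of_right _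
  have hpre := hfin'.preimage (Nat.cast_injective (R := ℤ)).injOn
  have h1 := (Set.ncard_le_ncard hsub (hfin.union hpre)).trans (Set.ncard_union_le _ _)
  have h2 : ((Nat.cast ⁻¹' (A ∩ Set.Icc (-(N : ℤ)) N)) : Set ℕ).ncard
      ≤ (A ∩ Set.Icc (-(N : ℤ)) N).ncard :=
    Set.ncard_le_ncard_of_injOn _ (fun a ha => ha) Nat.cast_injective.injOn hfin'
  have hI : (Set.Iic N).ncard = N + 1 := by
    rw [← Finset.coe_Iic, Set.ncard_coe_finset, Nat.card_Iic]
  rw [hI] at h1
  have hR : ((N : ℝ) + 1) ≤ c + (A ∩ Set.Icc (-(N : ℤ)) N).ncard := mod_cast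
    h1.trans (add_le_add le_rfl h2)
  rw [div_lt_iff₀ (by positivity)] at hN
  have : (4 : ℝ) * c ≤ N := mod_cast hN'
  nlinarith

end Fermat.Agent.Hilbertian
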