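import Mathlib
import Fermat.Agent.Hilbertian.Branches
import Fermat.Agent.Hilbertian.Sparse

/-!
# Hilbert irreducibility for monic integral families

If `g ∈ ℤ[T][X]` is monic and irreducible over `ℚ(T)`, then `g(n, X)` is irreducible
for all natural numbers `n` outside a set of density zero.
-/

namespace Fermat.Agent.Hilbertian

open Polynomial
open scoped Polynomial Nat

/-- The coefficientwise map `ℤ[T][X] → ℚ[T][X]`. -/
noncomputable def ratMap : ℤ[X][X] →+* ℚ[X][X] :=
  mapRingHom (mapRingHom (Int.castRingHom ℚ))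

/-- The coefficientwise map `ℤ[T][X] → ℂ[T][X]`. -/
noncomputable def complexMap : ℤ[X][X] →+* ℂ[X][X] :=
  mapRingHom (mapRingHom (Int.castRingHom ℂ))

lemma specialise_map {R S : Type*} [CommRing R] [CommRing S] (ψ : R →+* S) (f : R[X][X]) (t : R) :
    specialise (f.map (mapRingHom ψ)) (ψ t) = (specialise f t).map ψ := by
  ext j
  simp [coeff_specialise, coeff_map]

lemma complexMap_eq (g : ℤ[X][X]) :
    complexMap g = (ratMap g).map (mapRingHom (algebraMap ℚ ℂ)) := by
  ext j i
  simp [complexMap, ratMap, coeff_map]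

/-- An irreducible monic `g` has, over `ℂ`, only simple roots right of some vertical line. -/
lemma exists_simple_bound {g : ℤ[X][X]} (hg : g.Monic) (hirr : Irreducible (ratMap g)) :
    ∃ R : ℝ, 1 ≤ R ∧ ∀ z ∈ halfPlane R, ∀ x, (specialise (complexMap g) z).eval x = 0 →
      (derivative (specialise (complexMap g) z)).eval x ≠ 0 := by
  set f := ratMap g with hf
  have hfm : f.Monic := hg.map _
  have hirrK : Irreducible (f.map (algebraMap ℚ[X] (RatFunc ℚ))) :=
    hfm.irreducible_iff_irreducible_map_fraction_map.1 hirr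
  obtain ⟨a, b, hab⟩ := hirrK.separable
  obtain ⟨ca, hca0, hca⟩ := IsLocalization.integerNormalization_spec (nonZeroDivisors ℚ[X]) a
  obtain ⟨cb, hcb0, hcb⟩ := IsLocalization.integerNormalization_spec (nonZeroDivisors ℚ[X]) b
  set A := IsLocalization.integerNormalization (nonZeroDivisors ℚ[X]) a
  set B := IsLocalization.integerNormalization (nonZeroDivisors ℚ[X]) b
  have hD : ca * cb ≠ 0 := nonZeroDivisors.ne_zero (mul_mem hca0 hcb0)
  have hid : A * C cb * f + B * C ca * derivative f = C (ca * cb) := by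
    apply map_injective _ (IsFractionRing.injective ℚ[X] (RatFunc ℚ))
    simp only [Polynomial.map_add, Polynomial.map_mul, map_C, hca, hcb, ← derivative_map,
      Algebra.smul_def, Polynomial.algebraMap_apply, map_mul]
    linear_combination (C (algebraMap ℚ[X] (RatFunc ℚ) ca) *
      C (algebraMap ℚ[X] (RatFunc ℚ) cb)) * hab
  set D := (ca * cb).map (algebraMap ℚ ℂ)
  have hD0 : D ≠ 0 := (Polynomial.map_ne_zero_iff (algebraMap ℚ ℂ).injective).2 hD
  obtain ⟨R, hR⟩ := ((finite_setOfPred_isRoot hD0).image fun z : ℂ => z.re).bddAbove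
  refine ⟨max R 1, le_max_right _ _, fun z hz x hx hx' => ?_⟩
  have h := congrArg
    (fun p : ℚ[X][X] => (specialise (p.map (mapRingHom (algebraMap ℚ ℂ))) z).eval x)
    hid
  simp only [specialise, Polynomial.map_add, Polynomial.map_mul, map_C, eval_add, eval_mul,
    eval_C, ← derivative_map, hf, ← complexMap_eq] at h
  simp only [specialise] at hx hx'
  rw [hx, hx', mul_zero, mul_zero, add_zero] at h
  have hroot : IsRoot D z := h.symm
  have h1 : z.re ≤ R := hR ⟨z, hroot, rfl⟩
  exact absurd (le_max_left R 1) (not_le.2 (lt_of_lt_of_le hz h1))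

/-- The root bound grows polynomially. -/
lemma exists_rootBound_le (P : ℂ[X][X]) :
    ∃ C : ℝ, ∃ M : ℕ, 1 ≤ C ∧ ∀ z : ℂ, 1 ≤ ‖z‖ → rootBound P z ≤ C * ‖z‖ ^ M := by
  set M := (Finset.range P.natDegree).sup fun j => (P.coeff j).natDegree
  refine ⟨1 + ∑ j ∈ Finset.range P.natDegree, ∑ i ∈ Finset.range (M + 1), ‖(P.coeff j).coeff i‖,
    M, le_add_of_nonneg_right (by positivity), fun z hz => ?_⟩
  rw [rootBound, add_mul, one_mul, Finset.sum_mul]
  refine add_le_add (one_le_pow₀ hz) (Finset.sum_le_sum fun j hj => ?_)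
  rw [eval_eq_sum_range' (Nat.lt_succ_of_le
    (Finset.le_sup (f := fun j => (P.coeff j).natDegree) hj)), Finset.sum_mul]
  refine (norm_sum_le _ _).trans (Finset.sum_le_sum fun i hi => ?_)
  rw [norm_mul, norm_pow]
  exact mul_le_mul_of_nonneg_left
    (pow_le_pow_right₀ hz (Nat.lt_succ_iff.1 (Finset.mem_range.1 hi))) (norm_nonneg _)

/-- The monic polynomial with roots `x i z`, `i ∈ T`. -/
noncomputable def partialProd {ι : Type*} (x : ι → ℂ → ℂ) (T : Finset ι) (z : ℂ) : ℂ[X] :=
  ∏ i ∈ T, (X - C (x i z))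

lemma monic_partialProd {ι : Type*} (x : ι → ℂ → ℂ) (T : Finset ι) (z : ℂ) :
    (partialProd x T z).Monic := monic_prod_of_monic _ _ fun _ _ => monic_X_sub_C _

lemma natDegree_partialProd {ι : Type*} (x : ι → ℂ → ℂ) (T : Finset ι) (z : ℂ) :
    (partialProd x T z).natDegree = T.card := by
  rw [partialProd, natDegree_prod_of_monic _ _ fun _ _ => monic_X_sub_C _]
  simp

lemma coeff_partialProd_differentiableOn {ι : Type*} {x : ι → ℂ → ℂ} {U : Set ℂ}
    (hx : ∀ i, DifferentiableOn ℂ (x i) U) (T : Finset ι) :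
    ∀ j, DifferentiableOn ℂ (fun z => (partialProd x T z).coeff j) U := by
  classical
  induction T using Finset.induction_on with
  | empty => exact fun j => by simp [partialProd]
  | insert i T hi ih =>
    intro j
    simp only [partialProd, Finset.prod_insert hi, sub_mul, coeff_sub, coeff_C_mul]
    rcases j with _ | j
    · simp only [coeff_X_mul_zero, zero_sub]
      exact ((hx i).mul (ih 0)).neg
    · simp only [coeff_X_mul]
      exact (ih j).sub ((hx i).mul (ih (j + 1)))

lemma norm_coeff_partialProd_le {ι : Type*} {x : ι → ℂ → ℂ} {B : ℝ} {z : ℂ} (hB : 0 ≤ B)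
    (hx : ∀ i, ‖x i z‖ ≤ B) (T : Finset ι) :
    ∀ j, ‖(partialProd x T z).coeff j‖ ≤ (1 + B) ^ T.card := by
  classical
  induction T using Finset.induction_on with
  | empty => intro j; simp [partialProd, coeff_one]; split <;> simp
  | insert i T hi ih =>
    intro j
    simp only [partialProd, Finset.prod_insert hi, sub_mul, coeff_sub, coeff_C_mul,
      Finset.card_insert_of_notMem hi, pow_succ']
    have h1 : ∀ l, ‖x i z * (∏ i ∈ T, (X - C (x i z))).coeff l‖ ≤ B * (1 + B) ^ T.card :=
      fun l => by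
      rw [norm_mul]
      exact mul_le_mul (hx i) (ih l) (norm_nonneg _) hB
    rw [add_mul, one_mul]
    refine (norm_sub_le _ _).trans (add_le_add ?_ (h1 j))
    rcases j with _ | j
    · simp only [coeff_X_mul_zero, norm_zero]
      positivity
    · rw [coeff_X_mul]
      exact ih j

/-- Derivative bound for a holomorphic function of polynomial growth on a half-plane. -/
lemma abs_re_iteratedDeriv_le {y : ℂ → ℂ} {R C₁ : ℝ} {M : ℕ} (hR : 1 ≤ R)
    (hy : DifferentiableOn ℂ y (halfPlane R))
    (hb : ∀ z ∈ halfPlane R, ‖y z‖ ≤ C₁ * ‖z‖ ^ M) (hC₁ : 0 ≤ C₁) {t : ℝ} (ht : 2 * R < t) :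
    |(iteratedDeriv (M + 2) y (t : ℂ)).re|
      ≤ ((M + 2)! : ℝ) * C₁ * 2 ^ M * 2 ^ (M + 2) / t ^ 2 := by
  have ht0 : 0 < t := by linarith
  have hsub : Metric.closedBall (t : ℂ) (t / 2) ⊆ halfPlane R := fun z hz => by
    have h := (Complex.abs_re_le_norm (z - t)).trans (mem_closedBall_iff_norm.1 hz)
    rw [Complex.sub_re, Complex.ofReal_re, abs_le] at h
    show R < z.re
    linarith
  have hd : DiffContOnCl ℂ y (Metric.ball (t : ℂ) (t / 2)) :=
    (hy.mono hsub).diffContOnCl_ball le_rfl
  refine (Complex.abs_re_le_norm _).trans ?_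
  refine (Complex.norm_iteratedDeriv_le_of_forall_mem_sphere_norm_le (C := C₁ * (2 * t) ^ M) _
    (by positivity) hd fun z hz => ?_).trans_eq ?_
  · refine (hb z (hsub (Metric.sphere_subset_closedBall hz))).trans ?_
    refine mul_le_mul_of_nonneg_left (pow_le_pow_left₀ (norm_nonneg _) ?_ _) hC₁
    have h := norm_le_norm_add_norm_sub' z (t : ℂ)
    rw [mem_sphere_iff_norm.1 hz, Complex.norm_real, Real.norm_eq_abs, abs_of_pos ht0] at h
    linarith
  · rw [mul_pow, div_pow, pow_add t M 2]
    field_simp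

/-- The numbers at which the factor attached to a set `S` of branches is integral. -/
def splitSet {d : ℕ} (x : Fin d → ℂ → ℂ) (R : ℝ) (S : Finset (Fin d)) : Set ℕ :=
  {n : ℕ | 2 * R < (n : ℝ) ∧
    ∀ (b : Bool) (j : ℕ), ∃ a : ℤ, (partialProd x (if b then S else Sᶜ) (n : ℂ)).coeff j = a}

lemma natSparse_splitSet {g : ℤ[X][X]} (hirr : Irreducible (ratMap g)) {R C₁ : ℝ} (hR1 : 1 ≤ R)
    (hC₁ : 0 ≤ C₁) {d M : ℕ} {x : Fin d → ℂ → ℂ}
    (hxd : ∀ i, DifferentiableOn ℂ (x i) (halfPlane R))
    (hxprod : ∀ z ∈ halfPlane R, specialise (complexMap g) z = ∏ i, (X - C (x i z)))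
    (hgrow : ∀ (T : Finset (Fin d)) (j : ℕ), ∀ z ∈ halfPlane R,
      ‖(partialProd x T z).coeff j‖ ≤ C₁ * ‖z‖ ^ M)
    {S : Finset (Fin d)} (hS : S.Nonempty) (hS' : Sᶜ.Nonempty) :
    NatSparse (splitSet x R S) := by
  set k := M + 2 with hk
  set C₂ := (k ! : ℝ) * C₁ * 2 ^ M * 2 ^ k
  set Mg := (Finset.range (g.natDegree + 1)).sup fun j => (g.coeff j).natDegree
  set K := max (2 * k) Mg with hK
  refine natSparse_of_spread (A := 2 * R) (C := C₂) (K := K) (e := k * (k + 1))
    fun m hm hmZ hm0 => ?_
  let T : Bool → Finset (Fin d) := fun b => if b then S else Sᶜ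
  let G : Bool × ℕ → ℕ → ℝ → ℝ := fun c i t =>
    (iteratedDeriv i (fun z => (partialProd x (T c.1) z).coeff c.2) (t : ℂ)).re
  have hG : ∀ c i, ∀ t > 2 * R, HasDerivAt (G c i) (G c (i + 1) t) t := by
    intro c i t ht
    have hmem : (t : ℂ) ∈ halfPlane R := by
      show R < (t : ℂ).re
      rw [Complex.ofReal_re]
      linarith
    have han := ((coeff_partialProd_differentiableOn hxd (T c.1) c.2).analyticOnNhd
      (isOpen_halfPlane R)).iterated_deriv i _ hmem
    rw [← iteratedDeriv_eq_iterate] at han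
    show HasDerivAt _
      (iteratedDeriv (i + 1) (fun z => (partialProd x (T c.1) z).coeff c.2) (t : ℂ)).re t
    rw [iteratedDeriv_succ]
    exact han.differentiableAt.hasDerivAt.real_of_complex
  rcases points_dichotomy (k := k) (K := K) (by omega) (by omega)
    (show (0 : ℝ) ≤ 2 * R by linarith) (show 0 ≤ C₂ by positivity) hG
    (fun c t ht => abs_re_iteratedDeriv_le hR1 (coeff_partialProd_differentiableOn hxd _ _)
      (hgrow _ _) (by positivity) ht) m hm hm0
    (fun c i => by
      obtain ⟨a, ha⟩ := (hmZ i).2 c.1 c.2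
      refine ⟨a, ?_⟩
      simp [G, T, ha]) with hpoly | hspread
  · exfalso
    choose p hpdeg hpev using hpoly
    let q : Bool → ℚ[X][X] := fun b => ∑ j ∈ Finset.range (d + 1), monomial j (p (b, j))
    have hqc (b : Bool) (j : ℕ) : (q b).coeff j = if j < d + 1 then p (b, j) else 0 := by
      simp [q, coeff_monomial]
    have hqdeg (b : Bool) (j : ℕ) : ((q b).coeff j).natDegree ≤ k := by
      rw [hqc]
      split
      · exact natDegree_le_iff_degree_le.2 (hpdeg _).le
      · simp
    have hqspec (b : Bool) (i : Fin (K + 1)) :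
        (specialise (q b) (m i : ℚ)).map (algebraMap ℚ ℂ) = partialProd x (T b) (m i : ℂ) := by
      ext j
      rw [coeff_map, coeff_specialise, hqc]
      split
      · obtain ⟨a, ha⟩ := (hmZ i).2 b j
        have hv := hpev (b, j) i
        simp only [G, iteratedDeriv_zero, Complex.ofReal_natCast] at hv
        rw [show T b = (if b then S else Sᶜ) from rfl] at hv ⊢
        rw [ha, Complex.intCast_re] at hv
        rw [ha, show (p (b, j)).eval (m i : ℚ) = a from mod_cast hv]
        simp
      · have hlt : (partialProd x (T b) (m i : ℂ)).natDegree < j := by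
          rw [natDegree_partialProd]
          have := (T b).card_le_univ
          rw [Fintype.card_fin] at this
          omega
        simp [coeff_eq_zero_of_natDegree_lt hlt]
    have hmul : ratMap g = q true * q false := by
      ext1 j
      rw [← sub_eq_zero]
      refine eq_zero_of_degree_lt_of_eval_index_eq_zero (Finset.univ : Finset (Fin (K + 1)))
        (v := fun i => (m i : ℚ)) (Nat.cast_injective.comp hm.injective).injOn ?_ fun i _ => ?_
      · refine lt_of_le_of_lt (degree_le_natDegree) ?_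
        rw [Finset.card_univ, Fintype.card_fin, Nat.cast_lt, Nat.lt_succ_iff]
        refine (natDegree_sub_le _ _).trans (max_le ?_ ?_)
        · refine le_trans ?_ (le_max_right (2 * k) Mg)
          rw [ratMap, coe_mapRingHom, coeff_map]
          refine natDegree_map_le.trans ?_
          rcases Nat.lt_or_ge j (g.natDegree + 1) with h | h
          · exact Finset.le_sup (f := fun j => (g.coeff j).natDegree) (Finset.mem_range.2 h)
          · rw [coeff_eq_zero_of_natDegree_lt (Nat.lt_of_succ_le h)]
            simp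
        · refine le_trans ?_ (le_max_left (2 * k) Mg)
          rw [coeff_mul]
          refine natDegree_sum_le_of_forall_le _ _ fun ab _ => natDegree_mul_le.trans ?_
          have := hqdeg true ab.1
          have := hqdeg false ab.2
          omega
      · rw [eval_sub, sub_eq_zero, ← coeff_specialise, ← coeff_specialise]
        refine congrArg (fun p : ℚ[X] => p.coeff j) (map_injective (algebraMap ℚ ℂ)
          (algebraMap ℚ ℂ).injective ?_)
        have hmemi : (m i : ℂ) ∈ halfPlane R := by
          show R < ((m i : ℂ)).re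
          have := (hmZ i).1
          rw [Complex.natCast_re]
          linarith
        have hmulspec : specialise (q true * q false) (m i : ℚ)
            = specialise (q true) (m i : ℚ) * specialise (q false) (m i : ℚ) :=
          Polynomial.map_mul _
        rw [hmulspec, Polynomial.map_mul, hqspec, hqspec, ← specialise_map,
          ← complexMap_eq, map_natCast, hxprod _ hmemi]
        simp only [T, partialProd, if_true, Bool.false_eq_true, if_false]
        exact (Finset.prod_mul_prod_compl S _).symm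
    have hne : ∀ b, ¬ IsUnit (q b) := by
      intro b hu
      have h0 := natDegree_eq_zero_of_isUnit hu
      have h1 := congrArg natDegree (hqspec b 0)
      rw [natDegree_partialProd] at h1
      have h2 : (T b).card ≤ 0 := by
        rw [← h1]
        exact natDegree_map_le.trans ((natDegree_specialise_le _ _).trans h0.le)
      cases b
      · exact absurd (Finset.card_eq_zero.1 (Nat.le_zero.1 h2)) hS'.ne_empty
      · exact absurd (Finset.card_eq_zero.1 (Nat.le_zero.1 h2)) hS.ne_empty
    exact (hirr.isUnit_or_isUnit hmul).elim (hne true) (hne false)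
  · exact hspread

lemma mem_splitSet_of_factor {g : ℤ[X][X]} {R : ℝ} {d : ℕ} {x : Fin d → ℂ → ℂ}
    (hxprod : ∀ z ∈ halfPlane R, specialise (complexMap g) z = ∏ i, (X - C (x i z)))
    (hxinj : ∀ z ∈ halfPlane R, Function.Injective fun i => x i z)
    {n : ℕ} (hn2 : 2 * R < (n : ℝ)) (hmem : (n : ℂ) ∈ halfPlane R) {u v : ℤ[X]}
    (hu : u.Monic) (hv : v.Monic) (huv : u * v = specialise g (n : ℤ))
    (hu0 : u.natDegree ≠ 0) (hv0 : v.natDegree ≠ 0) :
    ∃ S : Finset (Fin d), S.Nonempty ∧ Sᶜ.Nonempty ∧ n ∈ splitSet x R S := by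
  classical
  have hprod : u.map (Int.castRingHom ℂ) * v.map (Int.castRingHom ℂ)
      = ∏ i, (X - C (x i (n : ℂ))) := by
    rw [← Polynomial.map_mul, huv, ← specialise_map, map_natCast]
    exact hxprod _ hmem
  set u' := u.map (Int.castRingHom ℂ)
  set v' := v.map (Int.castRingHom ℂ)
  have hu' : u'.Monic := hu.map _
  have hroots : u'.roots + v'.roots = Finset.univ.val.map fun i => x i (n : ℂ) := by
    rw [← roots_mul (mul_ne_zero hu'.ne_zero (hv.map _).ne_zero), hprod,
      roots_prod _ _ (Finset.prod_ne_zero_iff.2 fun i _ => X_sub_C_ne_zero _)]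
    simp [Multiset.bind_singleton]
  set S := Finset.univ.filter fun i => x i (n : ℂ) ∈ u'.roots with hSdef
  have hnd : (Finset.univ.val.map fun i => x i (n : ℂ)).Nodup :=
    Finset.univ.nodup.map (hxinj _ hmem)
  have hnd' := hroots ▸ hnd
  rw [Multiset.nodup_add] at hnd'
  have hSroots : S.val.map (fun i => x i (n : ℂ)) = u'.roots := by
    refine (Multiset.Nodup.ext (S.nodup.map (hxinj _ hmem)) hnd'.1).2 fun r => ?_
    constructor
    · intro hr
      obtain ⟨i, hi, rfl⟩ := Multiset.mem_map.1 hr
      exact (Finset.mem_filter.1 (show i ∈ S from hi)).2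
    · intro hr
      have : r ∈ u'.roots + v'.roots := Multiset.mem_add.2 (Or.inl hr)
      rw [hroots] at this
      obtain ⟨i, -, rfl⟩ := Multiset.mem_map.1 this
      exact Multiset.mem_map.2 ⟨i, Finset.mem_filter.2 ⟨Finset.mem_univ i, hr⟩, rfl⟩
  have huP : u' = partialProd x S (n : ℂ) := by
    rw [(IsAlgClosed.splits u').eq_prod_roots_of_monic hu', ← hSroots, Multiset.map_map]
    rfl
  have hvP : v' = partialProd x Sᶜ (n : ℂ) := by
    refine mul_left_cancel₀ hu'.ne_zero ?_
    rw [hprod]
    conv_rhs => rw [huP]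
    exact (Finset.prod_mul_prod_compl S _).symm
  have hScard : u.natDegree = S.card := by
    rw [← hu.natDegree_map (Int.castRingHom ℂ), ← natDegree_partialProd x S (n : ℂ), ← huP]
  have hSccard : v.natDegree = Sᶜ.card := by
    rw [← hv.natDegree_map (Int.castRingHom ℂ), ← natDegree_partialProd x Sᶜ (n : ℂ), ← hvP]
  refine ⟨S, ?_, ?_, hn2, ?_⟩
  · exact Finset.card_pos.1 (by omega)
  · exact Finset.card_pos.1 (by omega)
  · intro b j
    cases b
    · exact ⟨v.coeff j, by simp [← hvP, v', coeff_map]⟩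
    · exact ⟨u.coeff j, by simp [← huP, u', coeff_map]⟩

/-- **Hilbert irreducibility**, monic integral form. -/
theorem natSparse_reducible_monic {g : ℤ[X][X]} (hg : g.Monic) (hirr : Irreducible (ratMap g)) :
    NatSparse {n : ℕ | ¬ Irreducible (specialise g (n : ℤ))} := by
  classical
  obtain ⟨R, hR1, hsimple⟩ := exists_simple_bound hg hirr
  have hP : (complexMap g).Monic := hg.map _
  obtain ⟨CB, MB, hCB, hbound⟩ := exists_rootBound_le (complexMap g)
  obtain ⟨x, hxd, hxprod, hxinj, hxb⟩ := exists_rootBranches hP R hsimple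
  generalize (complexMap g).natDegree = d at x hxd hxprod hxinj hxb
  have hgrow : ∀ (T : Finset (Fin d)) (j : ℕ), ∀ z ∈ halfPlane R,
      ‖(partialProd x T z).coeff j‖ ≤ (2 * CB) ^ d * ‖z‖ ^ (MB * d) := by
    intro T j z hz
    have hz1 : 1 ≤ ‖z‖ := hR1.trans ((le_of_lt hz).trans
      ((le_abs_self _).trans (Complex.abs_re_le_norm z)))
    have hB := one_le_rootBound (complexMap g) z
    refine (norm_coeff_partialProd_le (zero_le_one.trans hB) (fun i => hxb i z hz) T j).trans ?_
    calc (1 + rootBound (complexMap g) z) ^ T.card ≤ (1 + rootBound (complexMap g) z) ^ d :=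
          pow_le_pow_right₀ (by linarith) (T.card_le_univ.trans (Fintype.card_fin d).le)
      _ ≤ (2 * (CB * ‖z‖ ^ MB)) ^ d := pow_le_pow_left₀ (by linarith)
          (by linarith [hbound z hz1]) _
      _ = (2 * CB) ^ d * ‖z‖ ^ (MB * d) := by rw [pow_mul]; ring
  refine ((natSparse_biUnion ((Finset.univ : Finset (Finset (Fin d))).filter
    fun S => S.Nonempty ∧ Sᶜ.Nonempty) fun S hS => natSparse_splitSet hirr hR1 (by positivity)
      hxd hxprod hgrow (Finset.mem_filter.1 hS).2.1 (Finset.mem_filter.1 hS).2.2).union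
    (natSparse_of_finite (Set.finite_Iic ⌊2 * R⌋₊))).mono ?_
  intro n hn
  rcases le_or_gt (n : ℝ) (2 * R) with hn2 | hn2
  · exact Or.inr (Nat.le_floor hn2)
  refine Or.inl ?_
  have hsm : (specialise g (n : ℤ)).Monic := monic_specialise hg _
  rw [Set.mem_ofPred_eq, hsm.irreducible_iff_natDegree, not_and] at hn
  have hne1 : specialise g (n : ℤ) ≠ 1 := fun h => hirr.not_isUnit <| by
    have hd0 : g.natDegree = 0 := by rw [← natDegree_specialise hg (n : ℤ), h, natDegree_one]
    rw [hg.natDegree_eq_zero.1 hd0, map_one]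
    exact isUnit_one
  obtain ⟨u, v, hu, hv, huv, hu0, hv0⟩ : ∃ u v : ℤ[X], u.Monic ∧ v.Monic ∧
      u * v = specialise g (n : ℤ) ∧ u.natDegree ≠ 0 ∧ v.natDegree ≠ 0 := by
    have h := hn hne1
    push Not at h
    exact h
  have hmem : (n : ℂ) ∈ halfPlane R := by
    show R < ((n : ℂ)).re
    rw [Complex.natCast_re]
    linarith
  obtain ⟨S, hS, hS', hnS⟩ := mem_splitSet_of_factor hxprod hxinj hn2 hmem hu hv huv hu0 hv0
  exact Set.mem_iUnion₂.2 ⟨S, Finset.mem_filter.2 ⟨Finset.mem_univ S, hS, hS'⟩, hnS⟩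

end Fermat.Agent.Hilbertian
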