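import Mathlib
import Fermat.Agent.Hilbertian.Monic

/-!
# The Hilbert irreducibility theorem over `ℚ`

For `f ∈ ℚ[T][X]` irreducible over `ℚ(T)` the integers `n` at which `f(n, X)` is
reducible, or of smaller degree, have density zero.  Consequences: simultaneous
specialisation of finitely many polynomials, rational roots, square values.
-/

namespace Fermat.Agent.Hilbertian

open Polynomial
open scoped Polynomial

lemma irreducible_scaleRoots_iff {k : Type*} [Field k] (p : k[X]) {s : k} (hs : s ≠ 0) :
    Irreducible (p.scaleRoots s) ↔ Irreducible p := by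
  have := invertibleOfNonzero (inv_ne_zero hs)
  let e := algEquivCMulXAddC s⁻¹ (0 : k)
  have he : e p = p.comp (C s⁻¹ * X) := by simp [e, comp, aeval_def]
  have heq : p.scaleRoots s = C (s ^ p.natDegree) * e p := by
    ext i
    rw [he, coeff_scaleRoots, coeff_C_mul, comp_C_mul_X_coeff]
    rcases le_or_gt i p.natDegree with hi | hi
    · rw [pow_sub₀ _ hs hi, inv_pow]
      ring
    · simp [coeff_eq_zero_of_natDegree_lt hi]
  rw [heq, irreducible_isUnit_mul (isUnit_C.2 (pow_ne_zero _ hs).isUnit)]
  exact MulEquiv.irreducible_iff (e : k[X] ≃* k[X])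

lemma irreducible_map_integralNormalization_iff {R k : Type*} [CommRing R] [IsDomain R] [Field k]
    (ψ : R →+* k) (f : R[X]) (hψ : ψ f.leadingCoeff ≠ 0) :
    Irreducible (f.integralNormalization.map ψ) ↔ Irreducible (f.map ψ) := by
  have h := congrArg (Polynomial.map ψ) (integralNormalization_mul_C_leadingCoeff f)
  rw [Polynomial.map_mul, map_C, map_scaleRoots _ _ _ hψ] at h
  rw [← irreducible_scaleRoots_iff (f.map ψ) hψ, ← h,
    irreducible_mul_isUnit (isUnit_C.2 hψ.isUnit)]

lemma irreducible_map_scaleRoots_iff {R k : Type*} [CommRing R] [Field k] (ψ : R →+* k)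
    {p : R[X]} (hp : p.Monic) {s : R} (hs : ψ s ≠ 0) :
    Irreducible ((p.scaleRoots s).map ψ) ↔ Irreducible (p.map ψ) := by
  rw [map_scaleRoots _ _ _ (by rw [hp.leadingCoeff, map_one]; exact one_ne_zero),
    irreducible_scaleRoots_iff _ hs]

/-- A monic polynomial over `ℚ[T]` becomes integral after scaling its roots. -/
lemma exists_integral_scaleRoots {h : ℚ[X][X]} (hh : h.Monic) :
    ∃ N : ℕ, N ≠ 0 ∧ ∃ g : ℤ[X][X], g.Monic ∧ ratMap g = h.scaleRoots (C (N : ℚ)) := by
  set N := ∏ j ∈ Finset.range h.natDegree, ∏ i ∈ (h.coeff j).support, ((h.coeff j).coeff i).den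
  refine ⟨N, Finset.prod_ne_zero_iff.2 fun j _ => Finset.prod_ne_zero_iff.2 fun i _ =>
    Rat.den_ne_zero _, ?_⟩
  have hlift : h.scaleRoots (C (N : ℚ)) ∈ lifts (mapRingHom (Int.castRingHom ℚ)) := by
    refine (lifts_iff_coeff_lifts _).2 fun j => ?_
    rw [coeff_scaleRoots, Set.mem_range]
    suffices h.coeff j * C (N : ℚ) ^ (h.natDegree - j) ∈ lifts (Int.castRingHom ℚ) from
      this.imp fun q hq => by simpa using hq
    refine (lifts_iff_coeff_lifts _).2 fun i => ?_
    rw [← map_pow, coeff_mul_C, Set.mem_range]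
    rcases lt_trichotomy j h.natDegree with hj | hj | hj
    · by_cases hi : i ∈ (h.coeff j).support
      · obtain ⟨t, ht⟩ : ((h.coeff j).coeff i).den ∣ N ^ (h.natDegree - j) :=
          ((Finset.dvd_prod_of_mem (fun i => ((h.coeff j).coeff i).den) hi).trans
            (Finset.dvd_prod_of_mem (fun j => ∏ i ∈ (h.coeff j).support, ((h.coeff j).coeff i).den)
              (Finset.mem_range.2 hj))).trans (dvd_pow_self N (by omega))
        refine ⟨((h.coeff j).coeff i).num * t, ?_⟩
        rw [eq_intCast, ← Nat.cast_pow, ht]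
        push_cast
        rw [← mul_assoc, Rat.mul_den_eq_num]
      · exact ⟨0, by simp [Polynomial.notMem_support_iff.1 hi]⟩
    · subst hj
      refine ⟨if i = 0 then 1 else 0, ?_⟩
      simp [hh.coeff_natDegree, coeff_one, apply_ite]
    · exact ⟨0, by simp [coeff_eq_zero_of_natDegree_lt hj]⟩
  obtain ⟨g, hg, -, hgm⟩ :=
    lifts_and_degree_eq_and_monic hlift ((monic_scaleRoots_iff _).2 hh)
  exact ⟨g, hgm, hg⟩

lemma specialise_ratMap (g : ℤ[X][X]) (n : ℤ) :
    specialise (ratMap g) (n : ℚ) = (specialise g n).map (Int.castRingHom ℚ) :=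
  specialise_map (Int.castRingHom ℚ) g n

/-- The set of exceptional integers of `f`. -/
def badSet (f : ℚ[X][X]) : Set ℤ :=
  {n : ℤ | ¬ ((specialise f (n : ℚ)).natDegree = f.natDegree ∧
    Irreducible (specialise f (n : ℚ)))}

lemma finite_eval_eq_zero {a : ℚ[X]} (ha : a ≠ 0) : {n : ℤ | a.eval (n : ℚ) = 0}.Finite :=
  (finite_setOfPred_isRoot ha).preimage Int.cast_injective.injOn

/-- **Hilbert irreducibility theorem**: if `f` is irreducible over `ℚ(T)` then `f(n, X)` is
irreducible of the same degree outside a set of integers of density zero. -/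
theorem densityZero_badSet {f : ℚ[X][X]}
    (hf : Irreducible (f.map (algebraMap ℚ[X] (RatFunc ℚ)))) : DensityZero (badSet f) := by
  have hf0 : f ≠ 0 := fun h => hf.ne_zero (by rw [h, Polynomial.map_zero])
  have ha : f.leadingCoeff ≠ 0 := leadingCoeff_ne_zero.2 hf0
  have hinjK := IsFractionRing.injective ℚ[X] (RatFunc ℚ)
  set h := f.integralNormalization
  have hh : h.Monic := monic_integralNormalization hf0
  obtain ⟨N, hN, g, hg, hgN⟩ := exists_integral_scaleRoots hh
  have hNQ : (N : ℚ) ≠ 0 := Nat.cast_ne_zero.2 hN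
  have hgK : Irreducible ((ratMap g).map (algebraMap ℚ[X] (RatFunc ℚ))) := by
    rw [hgN, irreducible_map_scaleRoots_iff _ hh ((map_ne_zero_iff _ hinjK).2 (C_ne_zero.2 hNQ)),
      irreducible_map_integralNormalization_iff _ _ ((map_ne_zero_iff _ hinjK).2 ha)]
    exact hf
  have hgirr : Irreducible (ratMap g) :=
    (hg.map (mapRingHom (Int.castRingHom ℚ))).irreducible_iff_irreducible_map_fraction_map.2 hgK
  let ν : ℤ[X] ≃+* ℤ[X] := (algEquivAevalNegX (R := ℤ)).toRingEquiv
  set g' := g.map (ν : ℤ[X] →+* ℤ[X]) with hg'def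
  have hg'irr : Irreducible (ratMap g') := by
    let νQ : ℚ[X] ≃+* ℚ[X] := (algEquivAevalNegX (R := ℚ)).toRingEquiv
    have heq : ratMap g' = mapEquiv νQ (ratMap g) := by
      simp only [ratMap, coe_mapRingHom, g', Polynomial.map_map, mapEquiv_apply]
      congr 1
      ext <;> simp [ν, νQ, algEquivAevalNegX]
    rw [heq]
    exact (MulEquiv.irreducible_iff (mapEquiv νQ : ℚ[X][X] ≃* ℚ[X][X])).2 hgirr
  have hpos := natSparse_reducible_monic hg hgirr
  have hneg := natSparse_reducible_monic (hg.map (ν : ℤ[X] →+* ℤ[X])) hg'irr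
  have hneg' : NatSparse {n : ℕ | ¬ Irreducible (specialise g (-(n : ℤ)))} := by
    refine hneg.mono fun n hn => ?_
    have hev : (evalRingHom (n : ℤ)).comp (ν : ℤ[X] →+* ℤ[X]) = evalRingHom (-(n : ℤ)) := by
      ext <;> simp [ν, algEquivAevalNegX]
    rw [Set.mem_ofPred_eq] at hn ⊢
    rw [specialise, Polynomial.map_map, hev]
    exact hn
  refine ((densityZero_of_natSparse (A := {n : ℤ | ¬ Irreducible (specialise g n)}) hpos
    hneg').union (densityZero_of_finite (finite_eval_eq_zero ha))).mono ?_
  intro n hn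
  by_contra hcon
  rw [Set.mem_union, not_or] at hcon
  obtain ⟨hirr, han⟩ := hcon
  simp only [Set.mem_ofPred_eq, not_not] at hirr han
  refine hn ⟨natDegree_map_of_leadingCoeff_ne_zero _ han, ?_⟩
  have h1 : Irreducible (specialise (ratMap g) (n : ℚ)) := by
    rw [specialise_ratMap]
    exact (monic_specialise hg n).irreducible_iff_irreducible_map_fraction_map.1 hirr
  rw [hgN, specialise, irreducible_map_scaleRoots_iff _ hh (by simpa using hNQ),
    irreducible_map_integralNormalization_iff _ _ han] at h1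
  exact h1

/-- Hilbert irreducibility for an irreducible bivariate polynomial involving `X`. -/
theorem densityZero_badSet_of_irreducible {f : ℚ[X][X]} (hf : Irreducible f)
    (hd : f.natDegree ≠ 0) : DensityZero (badSet f) :=
  densityZero_badSet
    ((hf.isPrimitive hd).irreducible_iff_irreducible_map_fraction_map.1 hf)

/-- Finitely many polynomials irreducible over `ℚ(T)` stay simultaneously irreducible, of
the same degree, at infinitely many natural numbers. -/
theorem infinite_irreducible_specialise {ι : Type*} (s : Finset ι) (f : ι → ℚ[X][X])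
    (hf : ∀ i ∈ s, Irreducible ((f i).map (algebraMap ℚ[X] (RatFunc ℚ)))) :
    {n : ℕ | ∀ i ∈ s, (specialise (f i) (n : ℚ)).natDegree = (f i).natDegree ∧
      Irreducible (specialise (f i) (n : ℚ))}.Infinite := by
  refine (densityZero_biUnion s fun i hi => densityZero_badSet (hf i hi)).infinite_nat.mono ?_
  intro n hn i hi
  by_contra hbad
  exact hn (Set.mem_iUnion₂.2 ⟨i, hi, by simpa [badSet] using hbad⟩)

/-- If `f(n, X)` has a rational root for a set of integers `n` not of density zero, then `f`
has a root in `ℚ(T)`. -/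
theorem exists_root_ratFunc {f : ℚ[X][X]}
    (h : ¬ DensityZero {n : ℤ | ∃ r : ℚ, (specialise f (n : ℚ)).IsRoot r}) :
    ∃ y : RatFunc ℚ, aeval y f = 0 := by
  classical
  by_contra hno
  apply h
  have hf0 : f ≠ 0 := fun h0 => hno ⟨0, by simp [h0]⟩
  obtain ⟨u, hu⟩ := UniqueFactorizationMonoid.factors_prod hf0
  set F := UniqueFactorizationMonoid.factors f
  have hfac : ∀ q ∈ F, DensityZero {n : ℤ | ∃ r : ℚ, (specialise q (n : ℚ)).IsRoot r} := by
    intro q hq
    have hqi : Irreducible q := UniqueFactorizationMonoid.irreducible_of_factor q hq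
    have hqf : q ∣ f := (Multiset.dvd_prod hq).trans ⟨u, hu.symm⟩
    rcases Nat.lt_trichotomy q.natDegree 1 with hd | hd | hd
    · rw [Nat.lt_one_iff, natDegree_eq_zero] at hd
      obtain ⟨c, rfl⟩ := hd
      refine (densityZero_of_finite (finite_eval_eq_zero (C_ne_zero.1 hqi.ne_zero))).mono ?_
      rintro n ⟨r, hr⟩
      simpa [specialise, IsRoot] using hr
    · obtain ⟨y, hy⟩ := exists_root_of_degree_eq_one
        (show (q.map (algebraMap ℚ[X] (RatFunc ℚ))).degree = 1 by
          rw [degree_map_eq_of_injective (IsFractionRing.injective ℚ[X] (RatFunc ℚ))]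
          exact (degree_eq_iff_natDegree_eq_of_pos one_pos).2 hd)
      refine absurd ⟨y, aeval_eq_zero_of_dvd_aeval_eq_zero hqf ?_⟩ hno
      rwa [IsRoot, eval_map_algebraMap] at hy
    · refine (densityZero_badSet_of_irreducible hqi (by omega)).mono ?_
      rintro n ⟨r, hr⟩ ⟨hdeg, hirr⟩
      have h1 := degree_eq_one_of_irreducible_of_root hirr hr
      have h2 : (specialise q (n : ℚ)).natDegree = 1 := natDegree_eq_of_degree_eq_some h1
      omega
  refine (densityZero_biUnion F.toFinset fun q hq => hfac q (Multiset.mem_toFinset.1 hq)).mono ?_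
  rintro n ⟨r, hr⟩
  rw [← hu, specialise, Polynomial.map_mul, IsRoot, eval_mul, mul_eq_zero] at hr
  have hunit : IsUnit (((u : ℚ[X][X]).map (evalRingHom (n : ℚ))).eval r) :=
    (u.isUnit.map (mapRingHom (evalRingHom (n : ℚ)))).map (evalRingHom r)
  have hr' := hr.resolve_right hunit.ne_zero
  rw [Polynomial.map_multiset_prod, eval_multiset_prod, Multiset.prod_eq_zero_iff] at hr'
  simp only [Multiset.map_map, Multiset.mem_map, Function.comp_apply] at hr'
  obtain ⟨q, hq, hq0⟩ := hr'
  exact Set.mem_iUnion₂.2 ⟨q, Multiset.mem_toFinset.2 hq, r, hq0⟩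

/-- A polynomial taking rational square values at a set of integers not of density zero is
the square of a polynomial. -/
theorem isSquare_of_square_values {p : ℚ[X]}
    (h : ¬ DensityZero {n : ℤ | IsSquare (p.eval (n : ℚ))}) : IsSquare p := by
  obtain ⟨y, hy⟩ := exists_root_ratFunc (f := X ^ 2 - C p) fun hd => h (hd.mono fun n hn => by
    obtain ⟨r, hr⟩ := hn
    exact ⟨r, by simp [specialise, IsRoot, hr, sq]⟩)
  rw [map_sub, map_pow, aeval_X, aeval_C, sub_eq_zero] at hy
  obtain ⟨z, rfl⟩ := IsIntegrallyClosed.exists_algebraMap_eq_of_isIntegral_pow (R := ℚ[X])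
    two_pos (by rw [hy]; exact isIntegral_algebraMap)
  exact ⟨z, IsFractionRing.injective ℚ[X] (RatFunc ℚ) (by rw [← hy, map_mul, sq])⟩

end Fermat.Agent.Hilbertian
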