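import Mathlib
import Fermat.Agent.Hilbertian.Irreducibility

/-!
# Specialisation of Galois groups

If `f ∈ ℚ[T][X]` is separable over `ℚ(T)`, then outside a set of integers of density zero
`f(n, X)` is separable of the same degree and has the same Galois group.  In particular
every finite Galois group over `ℚ(T)` is a Galois group over `ℚ`.
-/

namespace Fermat.Agent.Hilbertian

open Polynomial
open scoped Polynomial

/-- Extending a ring homomorphism to fractions with a given denominator. -/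
lemma exists_extension {P L M : Type*} [CommRing P] [Field L] [Field M] (π : P →+* L)
    (ψ : P →+* M) (hker : ∀ p, π p = 0 → ψ p = 0) {δ : P} (hL : π δ ≠ 0) (hM : ψ δ ≠ 0) :
    ∃ (R : Subring L) (φ : R →+* M), (∀ p, ∃ h : π p ∈ R, φ ⟨π p, h⟩ = ψ p) ∧
      ∀ x : L, x ∈ R ↔ ∃ p, ∃ m : ℕ, x * π δ ^ m = π p := by
  let Loc := Localization.Away δ
  let ρ : Loc →+* L := IsLocalization.Away.lift δ hL.isUnit
  let σ : Loc →+* M := IsLocalization.Away.lift δ hM.isUnit
  have hρ : ∀ p, ρ (algebraMap P Loc p) = π p := IsLocalization.Away.lift_eq δ hL.isUnit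
  have hσ : ∀ p, σ (algebraMap P Loc p) = ψ p := IsLocalization.Away.lift_eq δ hM.isUnit
  have hk : RingHom.ker ρ.rangeRestrict ≤ RingHom.ker σ := fun z hz => by
    obtain ⟨⟨p, ⟨_, m, rfl⟩⟩, hz'⟩ := IsLocalization.surj (Submonoid.powers δ) z
    rw [RingHom.mem_ker] at hz ⊢
    have hz0 : ρ z = 0 := congrArg Subtype.val hz
    have h1 := congrArg ρ hz'
    rw [map_mul, hρ, hρ, hz0, zero_mul] at h1
    have h2 := congrArg σ hz'
    rw [map_mul, hσ, hσ, hker p h1.symm, map_pow] at h2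
    exact (mul_eq_zero.1 h2).resolve_right (pow_ne_zero _ hM)
  refine ⟨ρ.range,
    ρ.rangeRestrict.liftOfSurjective ρ.rangeRestrict_surjective ⟨σ, hk⟩, fun p => ?_,
    fun x => ⟨?_, ?_⟩⟩
  · refine ⟨⟨algebraMap P Loc p, hρ p⟩, ?_⟩
    rw [show (⟨π p, _⟩ : ρ.range) = ρ.rangeRestrict (algebraMap P Loc p) from
      Subtype.ext (hρ p).symm]
    rw [RingHom.liftOfSurjective, RingHom.liftOfRightInverse_comp_apply]
    exact hσ p
  · rintro ⟨z, rfl⟩
    obtain ⟨⟨p, ⟨_, m, rfl⟩⟩, hz⟩ := IsLocalization.surj (Submonoid.powers δ) z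
    refine ⟨p, m, ?_⟩
    have h1 := congrArg ρ hz
    rwa [map_mul, hρ, hρ, map_pow] at h1
  · rintro ⟨p, m, hx⟩
    refine ⟨IsLocalization.mk' Loc p (⟨δ ^ m, m, rfl⟩ : Submonoid.powers δ), ?_⟩
    refine mul_right_cancel₀ (pow_ne_zero m hL) ?_
    rw [hx, ← map_pow, ← hρ, ← map_mul, IsLocalization.mk'_spec, hρ]

section Specialisation

variable (L : Type*) [Field L] [Algebra (RatFunc ℚ) L] [Algebra ℚ[X] L]
  [IsScalarTower ℚ[X] (RatFunc ℚ) L]

lemma algebraMap_injective_ratPoly : Function.Injective (algebraMap ℚ[X] L) := by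
  rw [IsScalarTower.algebraMap_eq ℚ[X] (RatFunc ℚ) L]
  exact (algebraMap (RatFunc ℚ) L).injective.comp (IsFractionRing.injective _ _)

variable [FiniteDimensional (RatFunc ℚ) L] [IsGalois (RatFunc ℚ) L]

/-- A finite Galois extension of `ℚ(T)` is the splitting field of a polynomial `G ∈ ℚ[T][X]`
of degree its degree; every prescribed finite subset of it can be specialised, compatibly
with the Galois action, at all but finitely many `n` with `G(n, X)` irreducible. -/
theorem exists_specialisation (T : Finset L) :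
    ∃ G : ℚ[X][X], Irreducible (G.map (algebraMap ℚ[X] (RatFunc ℚ))) ∧ G.Monic ∧
      ∃ Exc : Set ℤ, Exc.Finite ∧ ∀ n ∉ Exc, ∀ [Fact (Irreducible (specialise G (n : ℚ)))],
        IsGalois ℚ (AdjoinRoot (specialise G (n : ℚ))) ∧
        ∃ (R : Subring L) (φ : R →+* AdjoinRoot (specialise G (n : ℚ)))
          (e : (L ≃ₐ[RatFunc ℚ] L) ≃*
            (AdjoinRoot (specialise G (n : ℚ)) ≃ₐ[ℚ] AdjoinRoot (specialise G (n : ℚ)))),
          (∀ a : ℚ[X], ∃ h : algebraMap ℚ[X] L a ∈ R,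
            φ ⟨algebraMap ℚ[X] L a, h⟩ = algebraMap ℚ _ (a.eval (n : ℚ))) ∧
          (∀ x ∈ T, ∃ h : x ∈ R, x ≠ 0 → φ ⟨x, h⟩ ≠ 0) ∧
          ∀ σ (r : R), ∃ h : σ (r : L) ∈ R, e σ (φ r) = φ ⟨σ (r : L), h⟩ := by
  classical
  have hinjK := IsFractionRing.injective ℚ[X] (RatFunc ℚ)
  have hinjL := algebraMap_injective_ratPoly L
  have : Module.IsTorsionFree ℚ[X] L := Module.isTorsionFree_iff_algebraMap_injective.2 hinjL
  -- an integral primitive element
  obtain ⟨θ₀, hθ₀⟩ := Field.exists_primitive_element (RatFunc ℚ) L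
  obtain ⟨⟨s, hs⟩, hint⟩ := IsIntegral.exists_multiple_integral_of_isLocalization
    (nonZeroDivisors ℚ[X]) θ₀ (IsIntegral.of_finite (RatFunc ℚ) θ₀)
  have hint : IsIntegral ℚ[X] (s • θ₀) := hint
  have hs0 : algebraMap ℚ[X] (RatFunc ℚ) s ≠ 0 :=
    (map_ne_zero_iff _ hinjK).2 (nonZeroDivisors.ne_zero hs)
  set θ := s • θ₀ with hθdef
  have htop : IntermediateField.adjoin (RatFunc ℚ) {θ} = ⊤ := by
    rw [eq_top_iff, ← hθ₀, IntermediateField.adjoin_simple_le_iff]
    have h : θ ∈ IntermediateField.adjoin (RatFunc ℚ) {θ} :=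
      IntermediateField.mem_adjoin_simple_self _ _
    have h2 := IntermediateField.smul_mem _ h (x := (algebraMap ℚ[X] (RatFunc ℚ) s)⁻¹)
    have he : (algebraMap ℚ[X] (RatFunc ℚ) s)⁻¹ • θ = θ₀ := by
      rw [hθdef, ← IsScalarTower.algebraMap_smul (RatFunc ℚ) s θ₀, smul_smul,
        inv_mul_cancel₀ hs0, one_smul]
    rwa [he] at h2
  have htop' : Algebra.adjoin (RatFunc ℚ) {θ} = ⊤ := by
    rw [← IntermediateField.adjoin_simple_toSubalgebra_of_isAlgebraic
      (IsIntegral.of_finite (RatFunc ℚ) θ).isAlgebraic, htop]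
    rfl
  set G := minpoly ℚ[X] θ with hG
  have hGm : G.Monic := minpoly.monic hint
  have hGK : G.map (algebraMap ℚ[X] (RatFunc ℚ)) = minpoly (RatFunc ℚ) θ :=
    (minpoly.isIntegrallyClosed_eq_field_fractions' (RatFunc ℚ) hint).symm
  have hfin : Module.finrank (RatFunc ℚ) L = G.natDegree := by
    rw [← IntermediateField.finrank_top', ← htop,
      IntermediateField.adjoin.finrank (IsIntegral.of_finite (RatFunc ℚ) θ), ← hGK,
      natDegree_map_eq_of_injective hinjK]
  -- denominators of the elements to be specialised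
  set π : ℚ[X][X] →+* L := (aeval θ).toRingHom with hπ
  have hden : ∀ x : L, ∃ δ : ℚ[X], δ ≠ 0 ∧ ∃ P, x * π (C δ) = π P := by
    intro x
    have hx : x ∈ Algebra.adjoin (RatFunc ℚ) {θ} := htop' ▸ Algebra.mem_top
    rw [Algebra.adjoin_singleton_eq_range_aeval] at hx
    obtain ⟨Q, rfl⟩ := hx
    obtain ⟨b, hb, hbQ⟩ := IsLocalization.integerNormalization_spec (nonZeroDivisors ℚ[X]) Q
    refine ⟨b, nonZeroDivisors.ne_zero hb, IsLocalization.integerNormalization
      (nonZeroDivisors ℚ[X]) Q, ?_⟩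
    show _ * aeval θ (C b) = aeval θ _
    rw [aeval_C, ← aeval_map_algebraMap (RatFunc ℚ) θ, hbQ, Algebra.smul_def, map_mul,
      Polynomial.algebraMap_apply, aeval_C, ← IsScalarTower.algebraMap_apply]
    exact mul_comm _ _
  choose den hden0 hdenP using hden
  let V : Finset L := Finset.univ.image fun σ : L ≃ₐ[RatFunc ℚ] L => σ θ
  let T' : Finset L := T ∪ T.image (·⁻¹) ∪ V ∪
    (V ×ˢ V).image fun p => (p.1 - p.2)⁻¹
  set δ := ∏ x ∈ T', den x with hδ
  have hδ0 : δ ≠ 0 := Finset.prod_ne_zero_iff.2 fun x _ => hden0 x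
  refine ⟨G, hGK ▸ minpoly.irreducible (IsIntegral.of_finite (RatFunc ℚ) θ), hGm,
    _, finite_eval_eq_zero hδ0, fun n hn _ => ?_⟩
  set E := AdjoinRoot (specialise G (n : ℚ))
  set ev : ℚ[X] →+* E := (algebraMap ℚ E).comp (evalRingHom (n : ℚ))
  have hGev : G.eval₂ ev (AdjoinRoot.root _) = 0 := by
    rw [show ev = (AdjoinRoot.of _).comp (evalRingHom (n : ℚ)) from rfl, ← eval₂_map]
    exact AdjoinRoot.eval₂_root _
  set ψ : ℚ[X][X] →+* E := eval₂RingHom ev (AdjoinRoot.root _) with hψ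
  have hker : ∀ p, π p = 0 → ψ p = 0 := by
    intro p hp
    obtain ⟨q, rfl⟩ := minpoly.isIntegrallyClosed_dvd hint hp
    rw [map_mul, hψ, coe_eval₂RingHom, hGev, zero_mul]
  have hπC : ∀ a, π (C a) = algebraMap ℚ[X] L a := fun a => aeval_C θ a
  have hψC : ∀ a, ψ (C a) = algebraMap ℚ E (a.eval (n : ℚ)) := fun a => by simp [hψ, ev]
  have hπX : π X = θ := aeval_X θ
  have hL0 : π (C δ) ≠ 0 := by rw [hπC]; exact (map_ne_zero_iff _ hinjL).2 hδ0
  have hM0 : ψ (C δ) ≠ 0 := by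
    rw [hψC]
    exact (map_ne_zero_iff _ (algebraMap ℚ E).injective).2 hn
  obtain ⟨R, φ, hφ, hR⟩ := exists_extension π ψ hker hL0 hM0
  choose hπR hφπ using hφ
  have hmemT : ∀ x ∈ T', x ∈ R := fun x hx => by
    obtain ⟨P, hP⟩ := hdenP x
    refine (hR x).2 ⟨P * C (∏ y ∈ T'.erase x, den y), 1, ?_⟩
    rw [pow_one, hδ, ← Finset.mul_prod_erase T' den hx, map_mul C, map_mul, map_mul, ← mul_assoc,
      hP]
  have hunit : ∀ (x : L) (hx : x ∈ R), x⁻¹ ∈ R → x ≠ 0 → φ ⟨x, hx⟩ ≠ 0 := by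
    intro x hx hxi hx0 h0
    have h1 : (⟨x, hx⟩ : R) * ⟨x⁻¹, hxi⟩ = 1 := Subtype.ext (mul_inv_cancel₀ hx0)
    have h2 := congrArg φ h1
    rw [map_mul, h0, zero_mul, map_one] at h2
    exact zero_ne_one h2
  have hθ (σ : L ≃ₐ[RatFunc ℚ] L) : σ θ ∈ R :=
    hmemT _ (Finset.mem_union_left _ (Finset.mem_union_right _
      (Finset.mem_image_of_mem _ (Finset.mem_univ σ))))
  have hC (a : ℚ[X]) : algebraMap ℚ[X] L a ∈ R := hπC a ▸ hπR (C a)
  have hφC (a : ℚ[X]) : φ ⟨_, hC a⟩ = algebraMap ℚ E (a.eval (n : ℚ)) := by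
    rw [← hψC, ← hφπ]
    exact congrArg φ (Subtype.ext (hπC a).symm)
  have hσC (σ : L ≃ₐ[RatFunc ℚ] L) (a : ℚ[X]) :
      σ (algebraMap ℚ[X] L a) = algebraMap ℚ[X] L a := by
    rw [IsScalarTower.algebraMap_apply ℚ[X] (RatFunc ℚ) L, AlgEquiv.commutes]
  have hσπ (σ : L ≃ₐ[RatFunc ℚ] L) (p : ℚ[X][X]) : σ (π p) ∈ R := by
    induction p using Polynomial.induction_on with
    | C a => rw [hπC, hσC]; exact hC a
    | add p q hp hq => rw [map_add, map_add]; exact add_mem hp hq
    | monomial m a hp =>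
      rw [pow_succ, ← mul_assoc, map_mul, map_mul, hπX]
      exact mul_mem hp (hθ σ)
  have hσR (σ : L ≃ₐ[RatFunc ℚ] L) : ∀ x ∈ R, σ x ∈ R := by
    intro x hx
    obtain ⟨p, m, hxp⟩ := (hR x).1 hx
    have hi : (π (C δ))⁻¹ ∈ R := (hR _).2 ⟨1, 1, by
      rw [pow_one, inv_mul_cancel₀ hL0, map_one]⟩
    have h1 : σ x * π (C δ) ^ m = σ (π p) := by
      rw [← hxp, map_mul, map_pow, hπC, hσC]
    rw [(eq_mul_inv_iff_mul_eq₀ (pow_ne_zero m hL0)).2 h1, ← inv_pow]
    exact mul_mem (hσπ σ p) (pow_mem hi m)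
  let σR : (L ≃ₐ[RatFunc ℚ] L) → (R →+* R) := fun σ =>
    ((σ : L →+* L).comp R.subtype).codRestrict R fun r => hσR σ r r.2
  let πR : ℚ[X][X] →+* R := π.codRestrict R hπR
  have hcomp (σ : L ≃ₐ[RatFunc ℚ] L) :
      (φ.comp (σR σ)).comp πR = eval₂RingHom ev (φ ⟨σ θ, hθ σ⟩) := by
    refine Polynomial.ringHom_ext (fun a => ?_) ?_
    · simp only [RingHom.comp_apply, coe_eval₂RingHom, eval₂_C]
      rw [show ev a = algebraMap ℚ E (a.eval (n : ℚ)) from rfl, ← hφC]
      exact congrArg φ (Subtype.ext (by simp [σR, πR, hπC, hσC]))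
    · simp only [RingHom.comp_apply, coe_eval₂RingHom, eval₂_X]
      exact congrArg φ (Subtype.ext (by simp [σR, πR, hπX]))
  have hrootσ (σ : L ≃ₐ[RatFunc ℚ] L) :
      (specialise G (n : ℚ)).eval₂ ((Algebra.ofId ℚ E : ℚ →ₐ[ℚ] E) : ℚ →+* E)
        (φ ⟨σ θ, hθ σ⟩) = 0 := by
    show (G.map (evalRingHom (n : ℚ))).eval₂ _ _ = 0
    rw [eval₂_map]
    have h := RingHom.congr_fun (hcomp σ) G
    simp only [RingHom.comp_apply, coe_eval₂RingHom] at h
    have h0 : πR G = 0 := Subtype.ext (minpoly.aeval ℚ[X] θ)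
    rw [h0, map_zero, map_zero] at h
    exact h.symm
  let τ : (L ≃ₐ[RatFunc ℚ] L) → (E →ₐ[ℚ] E) := fun σ =>
    AdjoinRoot.liftAlgHom _ (Algebra.ofId ℚ E) (φ ⟨σ θ, hθ σ⟩) (hrootσ σ)
  have hτroot (σ) : τ σ (AdjoinRoot.root _) = φ ⟨σ θ, hθ σ⟩ :=
    AdjoinRoot.liftAlgHom_root _ _ _ (hrootσ σ)
  have hτ (σ : L ≃ₐ[RatFunc ℚ] L) (r : R) : τ σ (φ r) = φ (σR σ r) := by
    have key : ((τ σ : E →+* E).comp φ).comp πR = (φ.comp (σR σ)).comp πR := by
      rw [hcomp]
      refine Polynomial.ringHom_ext (fun a => ?_) ?_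
      · have h1 : φ (πR (C a)) = algebraMap ℚ E (a.eval (n : ℚ)) := (hφπ (C a)).trans (hψC a)
        simp only [RingHom.comp_apply, coe_eval₂RingHom, eval₂_C, h1]
        exact (τ σ).commutes _
      · have h1 : φ (πR X) = AdjoinRoot.root _ := (hφπ X).trans (by simp [hψ])
        simp only [RingHom.comp_apply, coe_eval₂RingHom, eval₂_X, h1]
        exact hτroot σ
    obtain ⟨p, m, hrp⟩ := (hR r).1 r.2
    have heq : r * πR (C δ) ^ m = πR p := Subtype.ext hrp
    have k1 := RingHom.congr_fun key p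
    have k2 := RingHom.congr_fun key (C δ)
    simp only [RingHom.comp_apply, RingHom.coe_coe] at k1 k2
    rw [← heq, map_mul, map_mul, map_mul, map_mul, map_pow, map_pow, map_pow, map_pow, k2] at k1
    refine mul_right_cancel₀ (pow_ne_zero m ?_) k1
    rw [← k2]
    exact (map_ne_zero_iff _ (τ σ).injective).2 (by
      rw [show φ (πR (C δ)) = ψ (C δ) from hφπ _]
      exact hM0)
  let eHom : (L ≃ₐ[RatFunc ℚ] L) →* (E ≃ₐ[ℚ] E) := MonoidHom.mk'
    (fun σ => AlgEquiv.ofBijective (τ σ) (AlgHom.bijective (τ σ))) fun σ σ' => by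
      refine AlgEquiv.coe_toAlgHom_injective (AdjoinRoot.algHom_ext ?_)
      show τ (σ * σ') (AdjoinRoot.root _) = τ σ (τ σ' (AdjoinRoot.root _))
      rw [hτroot, hτroot, hτ]
      exact congrArg φ (Subtype.ext rfl)
  have hinj : Function.Injective eHom := by
    intro σ σ' h
    by_contra hne
    have hθne : σ θ ≠ σ' θ := fun heq => hne (AlgEquiv.coe_toAlgHom_injective
      (AlgHom.ext_of_adjoin_eq_top htop' (by simpa [Set.EqOn] using heq)))
    have h1 : τ σ (AdjoinRoot.root _) = τ σ' (AdjoinRoot.root _) :=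
      show eHom σ (AdjoinRoot.root (specialise G (n : ℚ))) = eHom σ' (AdjoinRoot.root _) by rw [h]
    rw [hτroot, hτroot] at h1
    have hi : (σ θ - σ' θ)⁻¹ ∈ R := hmemT _ (Finset.mem_union_right _
      (Finset.mem_image.2 ⟨(σ θ, σ' θ), Finset.mem_product.2
        ⟨Finset.mem_image_of_mem _ (Finset.mem_univ σ),
          Finset.mem_image_of_mem _ (Finset.mem_univ σ')⟩, rfl⟩))
    refine hunit _ (sub_mem (hθ σ) (hθ σ')) hi (sub_ne_zero.2 hθne) ?_
    rw [show (⟨σ θ - σ' θ, _⟩ : R) = ⟨σ θ, hθ σ⟩ - ⟨σ' θ, hθ σ'⟩ from rfl, map_sub, h1, sub_self]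
  have hfinE : Module.finrank ℚ E = G.natDegree := by
    rw [(AdjoinRoot.powerBasis (monic_specialise hGm _).ne_zero).finrank]
    exact natDegree_specialise hGm _
  have : FiniteDimensional ℚ E :=
    (AdjoinRoot.powerBasis (monic_specialise hGm (n : ℚ)).ne_zero).finite
  have hcardL : Nat.card (L ≃ₐ[RatFunc ℚ] L) = G.natDegree := by
    rw [IsGalois.card_aut_eq_finrank, hfin]
  have hle : Nat.card (E ≃ₐ[ℚ] E) ≤ G.natDegree := by
    rw [Nat.card_eq_fintype_card, ← hfinE]
    exact AlgEquiv.card_le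
  have hge : G.natDegree ≤ Nat.card (E ≃ₐ[ℚ] E) :=
    hcardL ▸ Nat.card_le_card_of_injective eHom hinj
  have hbij : Function.Bijective eHom := (Nat.bijective_iff_injective_and_card eHom).2
    ⟨hinj, by omega⟩
  refine ⟨IsGalois.of_card_aut_eq_finrank (F := ℚ) (E := E) (by omega), R, φ,
    MulEquiv.ofBijective eHom hbij, fun a => ⟨hC a, hφC a⟩, fun x hx => ?_,
    fun σ r => ⟨hσR σ r r.2, hτ σ r⟩⟩
  have hxT : x ∈ T' :=
    Finset.mem_union_left _ (Finset.mem_union_left _ (Finset.mem_union_left _ hx))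
  have hxiT : x⁻¹ ∈ T' := Finset.mem_union_left _ (Finset.mem_union_left _
    (Finset.mem_union_right _ (Finset.mem_image_of_mem _ hx)))
  exact ⟨hmemT x hxT, hunit x (hmemT x hxT) (hmemT _ hxiT)⟩

end Specialisation

/-- The Galois group of the specialisation. -/
def GaloisPreserved (f : ℚ[X][X]) (n : ℤ) : Prop :=
  (specialise f (n : ℚ)).natDegree = f.natDegree ∧ (specialise f (n : ℚ)).Separable ∧
    Nonempty ((f.map (algebraMap ℚ[X] (RatFunc ℚ))).Gal ≃* (specialise f (n : ℚ)).Gal)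

/-- **Specialisation of Galois groups**: for `f` separable over `ℚ(T)`, outside a set of
integers of density zero `f(n, X)` is separable of the same degree with Galois group
isomorphic to that of `f` over `ℚ(T)`. -/
theorem densityZero_galois {f : ℚ[X][X]}
    (hf : (f.map (algebraMap ℚ[X] (RatFunc ℚ))).Separable) :
    DensityZero {n : ℤ | ¬ GaloisPreserved f n} := by
  classical
  set fK := f.map (algebraMap ℚ[X] (RatFunc ℚ)) with hfK
  let L := fK.SplittingField
  have : IsGalois (RatFunc ℚ) L := IsGalois.of_separable_splitting_field hf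
  have hinjK := IsFractionRing.injective ℚ[X] (RatFunc ℚ)
  have hinjL := algebraMap_injective_ratPoly L
  have hf0 : f ≠ 0 := fun h => hf.ne_zero (by rw [hfK, h, Polynomial.map_zero])
  have ha : f.leadingCoeff ≠ 0 := leadingCoeff_ne_zero.2 hf0
  set A := (fK.aroots L).toFinset with hA
  have hnd : (fK.aroots L).Nodup := nodup_roots hf.map
  let T : Finset L := A ∪ (A ×ˢ A).image fun p => p.1 - p.2
  obtain ⟨G, hGirr, -, Exc, hExc, hspec⟩ := exists_specialisation L T
  refine (((densityZero_badSet hGirr).union (densityZero_of_finite hExc)).union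
    (densityZero_of_finite (finite_eval_eq_zero ha))).mono fun n hn => ?_
  by_contra hcon
  simp only [Set.mem_union, not_or, badSet, Set.mem_ofPred_eq, not_not] at hcon
  obtain ⟨⟨⟨-, hirr⟩, hnExc⟩, han⟩ := hcon
  have := Fact.mk hirr
  obtain ⟨hgal, R, φ, e, hC, hT, hcomm⟩ := hspec n hnExc
  choose hCR hφC using hC
  choose hTR hφT using hT
  set E := AdjoinRoot (specialise G (n : ℚ))
  have hmemA {x : L} (hx : x ∈ A) : x ∈ T := Finset.mem_union_left _ hx
  let root' : A → R := fun α => ⟨α, hTR α (hmemA α.2)⟩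
  let ιR : ℚ[X] →+* R := (algebraMap ℚ[X] L).codRestrict R hCR
  -- the factorisation of `f` in `R`
  have hfac : f.map ιR = C (ιR f.leadingCoeff) * ∏ α : A, (X - C (root' α)) := by
    refine map_injective R.subtype Subtype.val_injective ?_
    rw [Polynomial.map_map, Polynomial.map_mul, map_C, Polynomial.map_prod]
    have h1 : R.subtype.comp ιR = algebraMap ℚ[X] L := rfl
    have hsplit : (fK.map (algebraMap (RatFunc ℚ) L)).Splits := SplittingField.splits fK
    have hlc : fK.leadingCoeff = algebraMap ℚ[X] (RatFunc ℚ) f.leadingCoeff :=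
      leadingCoeff_map_of_injective hinjK _
    rw [h1, IsScalarTower.algebraMap_eq ℚ[X] (RatFunc ℚ) L, ← Polynomial.map_map, ← hfK]
    conv_lhs => rw [hsplit.eq_prod_roots, leadingCoeff_map, hlc, ← IsScalarTower.algebraMap_apply]
    congr 1
    simp only [Polynomial.map_sub, map_X, map_C]
    show ((fK.aroots L).map fun x => X - C x).prod = ∏ α : A, (X - C (α : L))
    rw [Finset.prod_coe_sort A fun x => X - C x, Finset.prod_eq_multiset_prod, hA,
      Multiset.toFinset_val, hnd.dedup]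
  have hfacE : (specialise f (n : ℚ)).map (algebraMap ℚ E)
      = C (algebraMap ℚ E (f.leadingCoeff.eval (n : ℚ))) * ∏ α : A, (X - C (φ (root' α))) := by
    have h := congrArg (Polynomial.map φ) hfac
    have h2 : φ.comp ιR = (algebraMap ℚ E).comp (evalRingHom (n : ℚ)) := RingHom.ext hφC
    rw [Polynomial.map_map, h2, ← Polynomial.map_map, Polynomial.map_mul, map_C,
      Polynomial.map_prod] at h
    show (f.map (evalRingHom (n : ℚ))).map (algebraMap ℚ E) = _
    rw [h, ← RingHom.comp_apply φ ιR, h2]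
    simp
  have han' : f.leadingCoeff.eval (n : ℚ) ≠ 0 := han
  have hroot_inj : Function.Injective fun α => φ (root' α) := by
    intro α β h
    by_contra hne
    have hd : (α : L) - β ∈ T := Finset.mem_union_right _
      (Finset.mem_image.2 ⟨(α.1, β.1), Finset.mem_product.2 ⟨α.2, β.2⟩, rfl⟩)
    refine hφT _ hd (sub_ne_zero.2 fun h' => hne (Subtype.ext h')) ?_
    rw [show (⟨(α : L) - β, hTR _ hd⟩ : R) = root' α - root' β from rfl, map_sub]
    exact sub_eq_zero.2 h
  have hunit : IsUnit (C (algebraMap ℚ E (f.leadingCoeff.eval (n : ℚ)))) :=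
    isUnit_C.2 ((map_ne_zero_iff _ (algebraMap ℚ E).injective).2 han').isUnit
  have hsep : (specialise f (n : ℚ)).Separable := by
    rw [← separable_map (algebraMap ℚ E), hfacE]
    exact (separable_prod_X_sub_C_iff.2 hroot_inj).unit_mul hunit
  have hsplitE : ((specialise f (n : ℚ)).map (algebraMap ℚ E)).Splits := by
    rw [hfacE]
    exact (Splits.C _).mul (Splits.prod fun α _ => Splits.X_sub_C _)
  have hmemroot (α : A) : φ (root' α) ∈ (specialise f (n : ℚ)).rootSet E := by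
    rw [mem_rootSet]
    refine ⟨hsep.ne_zero, ?_⟩
    rw [← eval_map_algebraMap, hfacE, eval_mul, eval_prod,
      Finset.prod_eq_zero (Finset.mem_univ α) (by simp), mul_zero]
  have hfd : FiniteDimensional ℚ E := (AdjoinRoot.powerBasis hirr.ne_zero).finite
  have htop : IntermediateField.adjoin ℚ ((specialise f (n : ℚ)).rootSet E) = ⊤ := by
    set F := IntermediateField.adjoin ℚ ((specialise f (n : ℚ)).rootSet E)
    rw [← IsGalois.fixedField_fixingSubgroup F, ← IntermediateField.fixedField_bot (F := ℚ)]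
    congr 1
    rw [Subgroup.eq_bot_iff_forall]
    intro g hg
    obtain ⟨σ, rfl⟩ := e.surjective g
    have hfix : ∀ α : A, σ (α : L) = (α : L) := by
      intro α
      by_contra hne
      have hσα : σ (α : L) ∈ A := by
        have hα := α.2
        simp only [A, Multiset.mem_toFinset, mem_aroots] at hα ⊢
        refine ⟨hα.1, ?_⟩
        rw [← AlgEquiv.coe_toAlgHom, aeval_algHom_apply, hα.2, map_zero]
      obtain ⟨h, hc⟩ := hcomm σ (root' α)
      rw [IntermediateField.mem_fixingSubgroup_iff] at hg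
      rw [hg _ (IntermediateField.subset_adjoin ℚ _ (hmemroot α))] at hc
      exact hne (congrArg Subtype.val (hroot_inj (a₁ := ⟨σ α, hσα⟩) (a₂ := α) hc.symm))
    have hσ : σ = 1 := by
      refine AlgEquiv.coe_toAlgHom_injective
        (AlgHom.ext_of_adjoin_eq_top (SplittingField.adjoin_rootSet fK) ?_)
      intro x hx
      have hxA : x ∈ A := by
        rw [hA, Multiset.mem_toFinset, mem_aroots]
        exact mem_rootSet.1 hx
      exact hfix ⟨x, hxA⟩
    rw [hσ, map_one]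
  have : IsSplittingField ℚ E (specialise f (n : ℚ)) := by
    refine ⟨hsplitE, ?_⟩
    rw [← IntermediateField.adjoin_toSubalgebra_of_isAlgebraic
      (fun x _ => Algebra.IsAlgebraic.isAlgebraic x), htop]
    rfl
  exact hn ⟨natDegree_map_of_leadingCoeff_ne_zero _ han', hsep,
    ⟨e.trans (AlgEquiv.autCongr (IsSplittingField.algEquiv E (specialise f (n : ℚ))))⟩⟩

/-- A finite Galois group over `ℚ(T)` occurs over `ℚ`. -/
theorem exists_gal_equiv_rat (L : Type*) [Field L] [Algebra (RatFunc ℚ) L]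
    [FiniteDimensional (RatFunc ℚ) L] [IsGalois (RatFunc ℚ) L] :
    ∃ p : ℚ[X], p.Separable ∧ Nonempty ((L ≃ₐ[RatFunc ℚ] L) ≃* p.Gal) := by
  obtain ⟨p, hp, hsplit⟩ := IsGalois.is_separable_splitting_field (RatFunc ℚ) L
  obtain ⟨b, hb, hbp⟩ := IsLocalization.integerNormalization_spec (nonZeroDivisors ℚ[X]) p
  set f := IsLocalization.integerNormalization (nonZeroDivisors ℚ[X]) p
  have hb0 : algebraMap ℚ[X] (RatFunc ℚ) b ≠ 0 :=
    (map_ne_zero_iff _ (IsFractionRing.injective ℚ[X] (RatFunc ℚ))).2 (nonZeroDivisors.ne_zero hb)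
  have hfK : f.map (algebraMap ℚ[X] (RatFunc ℚ)) = C (algebraMap ℚ[X] (RatFunc ℚ) b) * p := by
    rw [hbp, Algebra.smul_def, Polynomial.algebraMap_apply]
  have hu : IsUnit (C (algebraMap ℚ[X] (RatFunc ℚ) b)) := isUnit_C.2 hb0.isUnit
  have hfsep : (f.map (algebraMap ℚ[X] (RatFunc ℚ))).Separable := hfK ▸ hp.unit_mul hu
  have hfsplit : IsSplittingField (RatFunc ℚ) L (f.map (algebraMap ℚ[X] (RatFunc ℚ))) := by
    rw [hfK]
    refine ⟨?_, ?_⟩
    · rw [Polynomial.map_mul, map_C]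
      exact (Splits.C _).mul hsplit.splits'
    · rw [rootSet, aroots_C_mul _ hb0, ← rootSet]
      exact hsplit.adjoin_rootSet'
  obtain ⟨n, hn⟩ := (densityZero_galois hfsep).infinite_nat.nonempty
  obtain ⟨-, hsep, ⟨e⟩⟩ := not_not.1 hn
  exact ⟨_, hsep, ⟨(AlgEquiv.autCongr (IsSplittingField.algEquiv L _)).trans e⟩⟩

end Fermat.Agent.Hilbertian
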